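/-
S17lib / CCR / Degree  (helper4)   — Project G, block CCR, part 5

**Constant field extension preserves degrees.**  `ConstExt ι` : `ι : Fk →ₐ[k] FΩ` is linearly
disjoint from `Ω` (`ld`) and `FΩ = Ω(ι Fk)` (`gen`).  Then for every `f ∈ Fk` transcendental over
`k` with `[Fk : k(f)] < ∞`:  `ι f` is transcendental over `Ω`, `[FΩ : Ω(ι f)] < ∞` and
`[FΩ : Ω(ι f)] = [Fk : k(f)]`.  Also: `ConstExt ι` + residue field `= k` gives `ConstData A ι`.
-/
import Mathlib
import Fermat.Agent.S17lib.CCR.Frame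
import Fermat.Agent.S18lib.RRgen.Canonical

set_option autoImplicit false
set_option linter.unusedSectionVars false
set_option linter.style.haveILetI false

noncomputable section

namespace Fermat.Agent.S17lib.CCR

open Module Polynomial IntermediateField
open Fermat.Agent.ProgramR.BarField (powFamily linearIndependent_powFamily_of_poly
  poly_of_linearIndependent_powFamily)

variable {k Ω Fk FΩ : Type*} [Field k] [Field Ω] [Field Fk] [Field FΩ]
  [Algebra k Ω] [Algebra k Fk] [Algebra Ω FΩ] [Algebra k FΩ] [IsScalarTower k Ω FΩ]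

variable (Ω) in
/-- **constant field extension**: linear disjointness and generation -/
structure ConstExt (ι : Fk →ₐ[k] FΩ) : Prop where
  /-- `k`-linearly independent families of `Fk` stay `Ω`-linearly independent in `FΩ` -/
  ld : ∀ s : Set Fk, LinearIndependent k ((↑) : s → Fk) → LinearIndependent Ω (fun x : s => ι x)
  /-- `FΩ = Ω(ι Fk)` -/
  gen : IntermediateField.adjoin Ω (Set.range ι) = ⊤

variable {ι : Fk →ₐ[k] FΩ}

theorem ConstExt.ld_family (h : ConstExt Ω ι) {J : Type*} {v : J → Fk}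
    (hv : LinearIndependent k v) : LinearIndependent Ω (fun j => ι (v j)) := by
  have h1 := h.ld (Set.range v) hv.linearIndepOn_id
  have hinj := hv.injective
  exact h1.comp (fun j => (⟨v j, Set.mem_range_self j⟩ : Set.range v))
    (fun a b hab => hinj (congrArg Subtype.val hab))

theorem ConstExt.poly_indep (h : ConstExt Ω ι) {y₀ : Fk} {n : ℕ} {θ₀ : Fin n → Fk}
    (hind : ∀ p : Fin n → k[X], ∑ i, aeval y₀ (p i) * θ₀ i = 0 → ∀ i, p i = 0) :
    ∀ p : Fin n → Polynomial Ω, ∑ i, aeval (ι y₀) (p i) * ι (θ₀ i) = 0 → ∀ i, p i = 0 := by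
  apply poly_of_linearIndependent_powFamily
  intro D
  have h1 := linearIndependent_powFamily_of_poly y₀ θ₀ hind D
  have h2 := h.ld_family h1
  have h3 : (fun ik => ι (powFamily y₀ θ₀ D ik)) = powFamily (ι y₀) (fun i => ι (θ₀ i)) D := by
    funext ik
    simp [powFamily, map_mul, map_pow]
  rw [h3] at h2
  exact h2

/-- `ι f` is transcendental over `Ω` -/
theorem ConstExt.transcendental_iota (h : ConstExt Ω ι) {f : Fk} (hf : Transcendental k f) :
    Transcendental Ω (ι f) := by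
  have hind : ∀ p : Fin 1 → k[X], ∑ i, aeval f (p i) * (fun _ : Fin 1 => (1 : Fk)) i = 0 →
      ∀ i, p i = 0 := by
    intro p hp i
    rw [Fin.sum_univ_one, mul_one] at hp
    have := transcendental_iff.1 hf (p 0) hp
    rwa [Subsingleton.elim i 0]
  have h2 := h.poly_indep hind
  rw [transcendental_iff]
  intro p hp
  refine h2 (fun _ => p) ?_ 0
  rw [Fin.sum_univ_one, map_one, mul_one]
  exact hp

/-- `ι` maps `k(f)` into `Ω(ι f)` -/
theorem iota_mem_adjoin_simple {f r : Fk} (hr : r ∈ k⟮f⟯) : ι r ∈ Ω⟮ι f⟯ := by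
  have haev : ∀ p : k[X], ι (aeval f p) ∈ Ω⟮ι f⟯ := by
    intro p
    rw [← Polynomial.aeval_algHom_apply, aeval_eq_sum_range]
    refine sum_mem fun i _ => ?_
    rw [Algebra.smul_def, IsScalarTower.algebraMap_apply k Ω FΩ]
    exact mul_mem (IntermediateField.algebraMap_mem _ _) (pow_mem (mem_adjoin_simple_self Ω (ι f)) i)
  rw [IntermediateField.mem_adjoin_simple_iff] at hr
  obtain ⟨p, q, rfl⟩ := hr
  rw [map_div₀]
  exact div_mem (haev p) (haev q)


/-- **upper bound**: the image of a `k(f)`-basis of `Fk` spans `FΩ` over `Ω(ι f)` -/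
theorem ConstExt.span_basis_eq_top (h : ConstExt Ω ι) (f : Fk) {J : Type*} [Fintype J]
    (b : Basis J k⟮f⟯ Fk) :
    Submodule.span Ω⟮ι f⟯ (Set.range fun i => ι (b i)) = ⊤ := by
  -- the `Ω(ι f)`-subalgebra generated by `ι Fk` is the span of `ι Fk`
  have h1 : Subalgebra.toSubmodule (Algebra.adjoin Ω⟮ι f⟯ (Set.range ι)) =
      Submodule.span Ω⟮ι f⟯ (Set.range ι) := by
    apply Algebra.adjoin_eq_span_of_subset
    have hle : Submonoid.closure (Set.range ι) ≤ MonoidHom.mrange (ι : Fk →* FΩ) := by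
      rw [Submonoid.closure_le]
      rintro _ ⟨x, rfl⟩
      exact ⟨x, rfl⟩
    intro x hx
    obtain ⟨y, rfl⟩ := hle hx
    exact Submodule.subset_span ⟨y, rfl⟩
  -- the span of `ι Fk` is the span of the image of the basis
  have h2 : Submodule.span Ω⟮ι f⟯ (Set.range ι) ≤
      Submodule.span Ω⟮ι f⟯ (Set.range fun i => ι (b i)) := by
    rw [Submodule.span_le]
    rintro _ ⟨x, rfl⟩
    have hx : x = ∑ i, ((b.repr x i : k⟮f⟯) : Fk) * b i := by
      conv_lhs => rw [← b.sum_repr x]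
      refine Finset.sum_congr rfl fun i _ => ?_
      rw [Algebra.smul_def]
      rfl
    rw [hx, map_sum]
    refine Submodule.sum_mem _ fun i _ => ?_
    rw [map_mul]
    have hmem : ι ((b.repr x i : k⟮f⟯) : Fk) ∈ Ω⟮ι f⟯ := iota_mem_adjoin_simple (b.repr x i).2
    have : ι ((b.repr x i : k⟮f⟯) : Fk) * ι (b i) =
        (⟨ι ((b.repr x i : k⟮f⟯) : Fk), hmem⟩ : Ω⟮ι f⟯) • ι (b i) := rfl
    rw [this]
    exact Submodule.smul_mem _ _ (Submodule.subset_span ⟨i, rfl⟩)
  -- finitely generated, hence everything is algebraic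
  have hfg : (Subalgebra.toSubmodule (Algebra.adjoin Ω⟮ι f⟯ (Set.range ι))).FG := by
    have heq : Subalgebra.toSubmodule (Algebra.adjoin Ω⟮ι f⟯ (Set.range ι)) =
        Submodule.span Ω⟮ι f⟯ (Set.range fun i => ι (b i)) := by
      rw [h1]
      refine le_antisymm h2 (Submodule.span_mono ?_)
      rintro _ ⟨i, rfl⟩
      exact ⟨b i, rfl⟩
    rw [heq]
    exact Submodule.fg_span (Set.finite_range _)
  have halg : ∀ x ∈ Set.range ι, IsAlgebraic Ω⟮ι f⟯ x := fun x hx =>
    (IsIntegral.of_mem_of_fg _ hfg x (Algebra.subset_adjoin hx)).isAlgebraic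
  have h4 := IntermediateField.adjoin_toSubalgebra_of_isAlgebraic halg
  -- the field generated is everything
  have h5 : IntermediateField.adjoin Ω⟮ι f⟯ (Set.range ι) = ⊤ := by
    rw [eq_top_iff]
    intro x _
    have hx : x ∈ IntermediateField.adjoin Ω (Set.range ι) := by rw [h.gen]; trivial
    have hle : IntermediateField.adjoin Ω (Set.range ι) ≤
        (IntermediateField.adjoin Ω⟮ι f⟯ (Set.range ι)).restrictScalars Ω := by
      rw [IntermediateField.adjoin_le_iff]
      intro y hy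
      exact IntermediateField.subset_adjoin Ω⟮ι f⟯ _ hy
    exact hle hx
  rw [eq_top_iff]
  intro x _
  have hx : x ∈ (IntermediateField.adjoin Ω⟮ι f⟯ (Set.range ι)).toSubalgebra := by
    rw [h5]; trivial
  rw [h4] at hx
  have hx' : x ∈ Subalgebra.toSubmodule (Algebra.adjoin Ω⟮ι f⟯ (Set.range ι)) := hx
  rw [h1] at hx'
  exact h2 hx'


theorem ConstExt.finiteDimensional (h : ConstExt Ω ι) (f : Fk) [FiniteDimensional k⟮f⟯ Fk] :
    FiniteDimensional Ω⟮ι f⟯ FΩ := by
  classical
  have hs := h.span_basis_eq_top f (finBasis k⟮f⟯ Fk)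
  refine ⟨⟨Finset.univ.image fun i => ι (finBasis k⟮f⟯ Fk i), ?_⟩⟩
  rw [Finset.coe_image, Finset.coe_univ, Set.image_univ]
  exact hs

theorem ConstExt.finrank_le (h : ConstExt Ω ι) (f : Fk) [FiniteDimensional k⟮f⟯ Fk] :
    finrank Ω⟮ι f⟯ FΩ ≤ finrank k⟮f⟯ Fk := by
  have hs := h.span_basis_eq_top f (finBasis k⟮f⟯ Fk)
  have h1 := finrank_range_le_card (R := Ω⟮ι f⟯) (fun i => ι (finBasis k⟮f⟯ Fk i))
  rw [Set.finrank, hs, finrank_top, Fintype.card_fin] at h1
  exact h1

theorem ConstExt.le_finrank (h : ConstExt Ω ι) {f : Fk} (hf : Transcendental k f)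
    [FiniteDimensional k⟮f⟯ Fk] [FiniteDimensional Ω⟮ι f⟯ FΩ] :
    finrank k⟮f⟯ Fk ≤ finrank Ω⟮ι f⟯ FΩ := by
  have hind : ∀ p : Fin (finrank k⟮f⟯ Fk) → k[X],
      ∑ i, aeval f (p i) * finBasis k⟮f⟯ Fk i = 0 → ∀ i, p i = 0 := by
    intro p hp i
    have hcoe : ∀ q : k[X], algebraMap k⟮f⟯ Fk (aeval (AdjoinSimple.gen k f) q) = aeval f q := by
      intro q
      rw [← aeval_algebraMap_apply, AdjoinSimple.algebraMap_gen]
    have h1 : ∑ i, (aeval (AdjoinSimple.gen k f) (p i)) • finBasis k⟮f⟯ Fk i = 0 := by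
      rw [← hp]
      refine Finset.sum_congr rfl fun i _ => ?_
      rw [Algebra.smul_def, hcoe]
    have h2 := Fintype.linearIndependent_iff.1 (finBasis k⟮f⟯ Fk).linearIndependent _ h1 i
    have h3 : aeval f (p i) = 0 := by
      rw [← hcoe, h2, map_zero]
    exact transcendental_iff.1 hf _ h3
  have hΩ := h.poly_indep hind
  have hιf := h.transcendental_iota hf
  letI := Fermat.Agent.S18lib.RRgen.Canonical.polyAlgebra Ω (ι f)
  letI := Fermat.Agent.S18lib.RRgen.Canonical.ratFuncAlgebra Ω hιf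
  haveI := Fermat.Agent.S18lib.RRgen.Canonical.isScalarTower_poly_ratFunc Ω hιf
  haveI := Fermat.Agent.S18lib.RRgen.Canonical.finiteDimensional_ratFunc Ω hιf
  have hli : LinearIndependent (Polynomial Ω) (fun i => ι (finBasis k⟮f⟯ Fk i)) := by
    rw [Fintype.linearIndependent_iff]
    intro g hg i
    refine hΩ g ?_ i
    rw [← hg]
    refine Finset.sum_congr rfl fun i _ => ?_
    rw [Algebra.smul_def]
    rfl
  have hli' : LinearIndependent (RatFunc Ω) (fun i => ι (finBasis k⟮f⟯ Fk i)) :=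
    (LinearIndependent.iff_fractionRing (Polynomial Ω) (RatFunc Ω)).1 hli
  have h5 := hli'.fintype_card_le_finrank
  rw [Fintype.card_fin, Fermat.Agent.S18lib.RRgen.Canonical.finrank_ratFunc Ω hιf] at h5
  exact h5

/-- **constant field extension preserves the degree of a function** -/
theorem ConstExt.finrank_eq (h : ConstExt Ω ι) {f : Fk} (hf : Transcendental k f)
    [FiniteDimensional k⟮f⟯ Fk] : finrank Ω⟮ι f⟯ FΩ = finrank k⟮f⟯ Fk := by
  haveI := h.finiteDimensional f
  exact le_antisymm (h.finrank_le f) (h.le_finrank hf)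


/-- the `Ω`-subalgebra generated by `ι Fk` is the `Ω`-span of `ι Fk` -/
theorem adjoin_range_eq_span :
    Subalgebra.toSubmodule (Algebra.adjoin Ω (Set.range ι)) = Submodule.span Ω (Set.range ι) := by
  apply Algebra.adjoin_eq_span_of_subset
  have hle : Submonoid.closure (Set.range ι) ≤ MonoidHom.mrange (ι : Fk →* FΩ) := by
    rw [Submonoid.closure_le]
    rintro _ ⟨x, rfl⟩
    exact ⟨x, rfl⟩
  intro x hx
  obtain ⟨y, rfl⟩ := hle hx
  exact Submodule.subset_span ⟨y, rfl⟩

/-- generation in quotient form -/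
theorem ConstExt.quot (h : ConstExt Ω ι) (x : FΩ) :
    ∃ a b : FΩ, a ∈ Submodule.span Ω (Set.range ι) ∧
      b ∈ Submodule.span Ω (Set.range ι) ∧ b ≠ 0 ∧ x * b = a := by
  have hx : x ∈ IntermediateField.adjoin Ω (Set.range ι) := by rw [h.gen]; trivial
  obtain ⟨r, hr, s, hs, rfl⟩ := IntermediateField.mem_adjoin_iff_div.1 hx
  have hr' : r ∈ Submodule.span Ω (Set.range ι) := by
    rw [← adjoin_range_eq_span]; exact hr
  have hs' : s ∈ Submodule.span Ω (Set.range ι) := by
    rw [← adjoin_range_eq_span]; exact hs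
  by_cases hs0 : s = 0
  · refine ⟨0, 1, Submodule.zero_mem _, ?_, one_ne_zero, ?_⟩
    · exact Submodule.subset_span ⟨1, map_one ι⟩
    · rw [hs0, div_zero, zero_mul]
  · exact ⟨r, s, hr', hs', hs0, div_mul_cancel₀ r hs0⟩

/-- a constant field extension with a valuation ring of `Ω` over `k` with residue field `k` -/
theorem ConstExt.constData (h : ConstExt Ω ι) (A : ValuationSubring Ω) [Algebra k A]
    [IsScalarTower k A Ω] [Algebra (IsLocalRing.ResidueField A) Fk]
    [IsScalarTower k (IsLocalRing.ResidueField A) Fk]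
    (hres : Function.Surjective (algebraMap k (IsLocalRing.ResidueField A))) : ConstData A ι :=
  ⟨h.ld, h.quot, hres⟩

/-- no `[Fk : k(y₀)] + 1` elements of `FΩ` are independent over `Ω[ι y₀]` -/
theorem ConstExt.not_poly_indep (h : ConstExt Ω ι) {y₀ : Fk} (hy₀ : Transcendental k y₀)
    [FiniteDimensional k⟮y₀⟯ Fk] (x : Fin (finrank k⟮y₀⟯ Fk + 1) → FΩ) :
    ¬ ∀ p : Fin (finrank k⟮y₀⟯ Fk + 1) → Polynomial Ω,
      ∑ i, aeval (ι y₀) (p i) * x i = 0 → ∀ i, p i = 0 := by
  intro hΩ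
  have hιf := h.transcendental_iota hy₀
  haveI := h.finiteDimensional y₀
  letI := Fermat.Agent.S18lib.RRgen.Canonical.polyAlgebra Ω (ι y₀)
  letI := Fermat.Agent.S18lib.RRgen.Canonical.ratFuncAlgebra Ω hιf
  haveI := Fermat.Agent.S18lib.RRgen.Canonical.isScalarTower_poly_ratFunc Ω hιf
  haveI := Fermat.Agent.S18lib.RRgen.Canonical.finiteDimensional_ratFunc Ω hιf
  have hli : LinearIndependent (Polynomial Ω) x := by
    rw [Fintype.linearIndependent_iff]
    intro g hg i
    refine hΩ g ?_ i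
    rw [← hg]
    refine Finset.sum_congr rfl fun i _ => ?_
    rw [Algebra.smul_def]
    rfl
  have hli' : LinearIndependent (RatFunc Ω) x :=
    (LinearIndependent.iff_fractionRing (Polynomial Ω) (RatFunc Ω)).1 hli
  have h5 := hli'.fintype_card_le_finrank
  rw [Fintype.card_fin, Fermat.Agent.S18lib.RRgen.Canonical.finrank_ratFunc Ω hιf,
    h.finrank_eq hy₀] at h5
  omega

/-- a `k(y₀)`-basis of `Fk` is independent over `k[y₀]` -/
theorem poly_indep_finBasis {y₀ : Fk} (hy₀ : Transcendental k y₀) [FiniteDimensional k⟮y₀⟯ Fk] :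
    ∀ p : Fin (finrank k⟮y₀⟯ Fk) → k[X],
      ∑ i, aeval y₀ (p i) * finBasis k⟮y₀⟯ Fk i = 0 → ∀ i, p i = 0 := by
  intro p hp i
  have hcoe : ∀ q : k[X], algebraMap k⟮y₀⟯ Fk (aeval (AdjoinSimple.gen k y₀) q) = aeval y₀ q := by
    intro q
    rw [← aeval_algebraMap_apply, AdjoinSimple.algebraMap_gen]
  have h1 : ∑ i, (aeval (AdjoinSimple.gen k y₀) (p i)) • finBasis k⟮y₀⟯ Fk i = 0 := by
    rw [← hp]
    refine Finset.sum_congr rfl fun i _ => ?_
    rw [Algebra.smul_def, hcoe]
  have h2 := Fintype.linearIndependent_iff.1 (finBasis k⟮y₀⟯ Fk).linearIndependent _ h1 i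
  have h3 : aeval y₀ (p i) = 0 := by
    rw [← hcoe, h2, map_zero]
  exact transcendental_iff.1 hy₀ _ h3

end Fermat.Agent.S17lib.CCR
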