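/-
S17lib / CCR / Tensor  (helper4)   — Project G, block CCR (constant-curve reduction), part 1

EQUAL-CHARACTERISTIC reduction of a constant curve.  Setting:
* `k ⊂ Ω` fields, `Fk / k` and `FΩ / Ω` function fields, `ι : Fk →ₐ[k] FΩ` ("`FΩ = Ω · Fk`"),
* `A ⊂ Ω` a valuation subring containing `k` whose residue field is `k`
  (`Algebra k A`, `IsScalarTower k A Ω`, `algebraMap k (ResidueField A)` surjective),
* `Fk` is ALSO an algebra over `ResidueField A`, compatibly (`IsScalarTower k (ResidueField A) Fk`).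

This file: the two maps `mu : A ⊗[k] Fk → FΩ` (`a ⊗ f ↦ a · ι f`) and
`rho : A ⊗[k] Fk → Fk` (`a ⊗ f ↦ ā · f`), injectivity of `mu` (from linear disjointness `ld`),
and the NORMALISATION lemma: every nonzero element of the `Ω`-span of `ι Fk` is
`c · mu t` with `c ∈ Ωˣ` and `rho t ≠ 0`.
-/
import Mathlib

set_option autoImplicit false
set_option linter.unusedSectionVars false

noncomputable section

namespace Fermat.Agent.S17lib.CCR

open TensorProduct Module

variable {k Ω Fk FΩ : Type*} [Field k] [Field Ω] [Field Fk] [Field FΩ]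
  [Algebra k Ω] [Algebra k Fk] [Algebra Ω FΩ] [Algebra k FΩ] [IsScalarTower k Ω FΩ]

variable (A : ValuationSubring Ω) [Algebra k A] [IsScalarTower k A Ω]
  [Algebra (IsLocalRing.ResidueField A) Fk] [IsScalarTower k (IsLocalRing.ResidueField A) Fk]
  (ι : Fk →ₐ[k] FΩ)

/-- **the constant-extension datum** (`Prop` part): linear disjointness, generation in quotient
form, and residue field `= k`. -/
structure ConstData : Prop where
  /-- `k`-linearly independent families of `Fk` stay `Ω`-linearly independent in `FΩ` -/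
  ld : ∀ s : Set Fk, LinearIndependent k ((↑) : s → Fk) → LinearIndependent Ω (fun x : s => ι x)
  /-- every element of `FΩ` is a quotient of two elements of the `Ω`-span of `ι Fk` -/
  quot : ∀ x : FΩ, ∃ a b : FΩ, a ∈ Submodule.span Ω (Set.range ι) ∧
    b ∈ Submodule.span Ω (Set.range ι) ∧ b ≠ 0 ∧ x * b = a
  /-- the residue field of `A` is `k` -/
  res_surj : Function.Surjective (algebraMap k (IsLocalRing.ResidueField A))

/-- `A → FΩ` as a `k`-algebra map -/
def incl : A →ₐ[k] FΩ :=
  (IsScalarTower.toAlgHom k Ω FΩ).comp (IsScalarTower.toAlgHom k A Ω)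

@[simp] theorem incl_apply (a : A) : incl (k := k) (FΩ := FΩ) A a = algebraMap Ω FΩ (a : Ω) := rfl

/-- `A → Fk` (residue, then constants) as a `k`-algebra map -/
def resid : A →ₐ[k] Fk :=
  (IsScalarTower.toAlgHom k (IsLocalRing.ResidueField A) Fk).comp
    (IsScalarTower.toAlgHom k A (IsLocalRing.ResidueField A))

@[simp] theorem resid_apply (a : A) : resid (k := k) (Fk := Fk) A a =
    algebraMap (IsLocalRing.ResidueField A) Fk (IsLocalRing.residue A a) := rfl

/-- `a ⊗ f ↦ a · ι f` -/
def mu : A ⊗[k] Fk →ₐ[k] FΩ := Algebra.TensorProduct.productMap (incl A) ι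

/-- `a ⊗ f ↦ ā · f` -/
def rho : A ⊗[k] Fk →ₐ[k] Fk := Algebra.TensorProduct.productMap (resid A) (AlgHom.id k Fk)

@[simp] theorem mu_tmul (a : A) (f : Fk) :
    mu A ι (a ⊗ₜ[k] f) = algebraMap Ω FΩ (a : Ω) * ι f := by
  simp [mu]

@[simp] theorem rho_tmul (a : A) (f : Fk) :
    rho (k := k) A (a ⊗ₜ[k] f) =
      algebraMap (IsLocalRing.ResidueField A) Fk (IsLocalRing.residue A a) * f := by
  simp [rho]

/-- the fixed `k`-basis of `Fk` -/
abbrev bIdx (k Fk : Type*) [Field k] [Field Fk] [Algebra k Fk] : Set Fk :=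
  Basis.ofVectorSpaceIndex k Fk

/-- the induced `A`-basis of `A ⊗ Fk` -/
def bA : Basis (bIdx k Fk) A (A ⊗[k] Fk) :=
  Algebra.TensorProduct.basis A (Basis.ofVectorSpace k Fk)

theorem bA_apply (i : bIdx k Fk) : bA (k := k) (Fk := Fk) A i = (1 : A) ⊗ₜ[k] (i : Fk) := by
  rw [bA, Algebra.TensorProduct.basis_apply, Basis.ofVectorSpace_apply_self]

/-- expansion of a tensor in the basis, in pure-tensor form -/
theorem eq_sum_tmul (t : A ⊗[k] Fk) :
    t = ((bA (k := k) (Fk := Fk) A).repr t).sum fun i a => a ⊗ₜ[k] (i : Fk) := by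
  conv_lhs => rw [← (bA (k := k) (Fk := Fk) A).linearCombination_repr t]
  rw [Finsupp.linearCombination_apply]
  refine Finsupp.sum_congr fun i _ => ?_
  rw [bA_apply, TensorProduct.smul_tmul', smul_eq_mul, mul_one]

theorem mu_eq_sum (t : A ⊗[k] Fk) :
    mu A ι t = ((bA (k := k) (Fk := Fk) A).repr t).sum
      fun i a => algebraMap Ω FΩ (a : Ω) * ι (i : Fk) := by
  conv_lhs => rw [eq_sum_tmul A t]
  rw [Finsupp.sum, map_sum]
  exact Finset.sum_congr rfl fun i _ => mu_tmul A ι _ _

theorem rho_eq_sum (t : A ⊗[k] Fk) :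
    rho (k := k) A t = ((bA (k := k) (Fk := Fk) A).repr t).sum
      fun i a => algebraMap (IsLocalRing.ResidueField A) Fk (IsLocalRing.residue A a) * (i : Fk) := by
  conv_lhs => rw [eq_sum_tmul A t]
  rw [Finsupp.sum, map_sum]
  exact Finset.sum_congr rfl fun i _ => rho_tmul A _ _


variable {A ι}

theorem ConstData.indep_basis (h : ConstData A ι) :
    LinearIndependent Ω (fun i : bIdx k Fk => ι (i : Fk)) :=
  h.ld _ (Basis.ofVectorSpaceIndex.linearIndependent k Fk)

/-- **`mu` is injective** (linear disjointness) -/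
theorem mu_injective (h : ConstData A ι) : Function.Injective (mu A ι) := by
  rw [injective_iff_map_eq_zero]
  intro t ht
  rw [mu_eq_sum] at ht
  have hl := linearIndependent_iff.1 h.indep_basis
    (((bA (k := k) (Fk := Fk) A).repr t).mapRange (fun a : A => (a : Ω)) rfl) (by
      rw [Finsupp.linearCombination_apply, Finsupp.sum_mapRange_index (by simp)]
      simpa [Algebra.smul_def] using ht)
  have h0 : (bA (k := k) (Fk := Fk) A).repr t = 0 := by
    ext i
    have := DFunLike.congr_fun hl i
    simpa using this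
  exact (LinearEquiv.map_eq_zero_iff _).1 h0

/-- `k`-independent families of `Fk` are independent over the residue field of `A` -/
theorem linearIndependent_resField (hs : Function.Surjective (algebraMap k (IsLocalRing.ResidueField A)))
    {J : Type*} {v : J → Fk} (hv : LinearIndependent k v) :
    LinearIndependent (IsLocalRing.ResidueField A) v := by
  rw [linearIndependent_iff'] at hv ⊢
  intro s g hg j hj
  choose c hc using hs
  have h1 : ∀ j, g j • v j = c (g j) • v j := by
    intro j
    conv_lhs => rw [← hc (g j)]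
    rw [Algebra.smul_def, Algebra.smul_def, ← IsScalarTower.algebraMap_apply]
  have h2 : ∑ j ∈ s, c (g j) • v j = 0 := by
    rw [← hg]
    exact Finset.sum_congr rfl fun j _ => (h1 j).symm
  have h3 := hv s (fun j => c (g j)) h2 j hj
  rw [← hc (g j), h3, map_zero]

/-- the `Ω`-span of `ι Fk` is spanned by the images of the basis -/
theorem ConstData.exists_coords (a : FΩ) (ha : a ∈ Submodule.span Ω (Set.range ι)) :
    ∃ l : bIdx k Fk →₀ Ω, a = l.sum fun i c => c • ι (i : Fk) := by
  have hle : Submodule.span Ω (Set.range ι) ≤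
      Submodule.span Ω (Set.range fun i : bIdx k Fk => ι (i : Fk)) := by
    rw [Submodule.span_le]
    rintro _ ⟨f, rfl⟩
    have hf : f = ((Basis.ofVectorSpace k Fk).repr f).sum fun i c => c • (i : Fk) := by
      conv_lhs => rw [← (Basis.ofVectorSpace k Fk).linearCombination_repr f]
      rw [Finsupp.linearCombination_apply]
      refine Finsupp.sum_congr fun i _ => ?_
      rw [Basis.ofVectorSpace_apply_self]
    rw [hf, Finsupp.sum, map_sum]
    refine Submodule.sum_mem _ fun i _ => ?_
    rw [map_smul, ← algebraMap_smul Ω]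
    exact Submodule.smul_mem _ _ (Submodule.subset_span ⟨i, rfl⟩)
  obtain ⟨l, hl⟩ := Finsupp.mem_span_range_iff_exists_finsupp.1 (hle ha)
  exact ⟨l, hl.symm⟩


/-- **normalisation**: a nonzero element of the `Ω`-span of `ι Fk` is `c · mu t` with `c ≠ 0` and
`rho t ≠ 0`. -/
theorem ConstData.exists_normal (h : ConstData A ι) {a : FΩ}
    (ha : a ∈ Submodule.span Ω (Set.range ι)) (ha0 : a ≠ 0) :
    ∃ (c : Ω) (t : A ⊗[k] Fk), c ≠ 0 ∧ rho (k := k) A t ≠ 0 ∧
      a = algebraMap Ω FΩ c * mu A ι t := by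
  classical
  obtain ⟨l, rfl⟩ := ConstData.exists_coords a ha
  have hl0 : l ≠ 0 := by
    rintro rfl
    simp at ha0
  obtain ⟨i₀, hi₀, hmax⟩ := l.support.exists_max_image (fun i => A.valuation (l i))
    (Finsupp.support_nonempty_iff.2 hl0)
  obtain ⟨c, hc⟩ : ∃ c, c = l i₀ := ⟨_, rfl⟩
  have hc0 : c ≠ 0 := by rw [hc]; exact Finsupp.mem_support_iff.1 hi₀
  have hmem : ∀ i, l i / c ∈ A := by
    intro i
    by_cases hi : i ∈ l.support
    · rw [← A.valuation_le_one_iff, map_div₀]
      have hv0 : A.valuation c ≠ 0 := (Valuation.ne_zero_iff _).2 hc0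
      rw [div_le_one₀ (zero_lt_iff.2 hv0), hc]
      exact hmax i hi
    · rw [Finsupp.notMem_support_iff.1 hi, zero_div]
      exact A.zero_mem
  refine ⟨c, ∑ i ∈ l.support, (⟨l i / c, hmem i⟩ : A) ⊗ₜ[k] (i : Fk), hc0, ?_, ?_⟩
  · intro h0
    rw [map_sum] at h0
    simp only [rho_tmul] at h0
    have hind := linearIndependent_resField (A := A) h.res_surj
      (Basis.ofVectorSpaceIndex.linearIndependent k Fk)
    rw [linearIndependent_iff'] at hind
    have h1 := hind l.support (fun i => IsLocalRing.residue A ⟨l i / c, hmem i⟩)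
      (by simpa [Algebra.smul_def] using h0) i₀ hi₀
    have h2 : (⟨l i₀ / c, hmem i₀⟩ : A) = 1 := by
      apply Subtype.ext
      show l i₀ / c = 1
      rw [← hc]
      exact div_self hc0
    simp only [h2, map_one] at h1
    exact one_ne_zero h1
  · rw [map_sum, Finset.mul_sum, Finsupp.sum]
    refine Finset.sum_congr rfl fun i _ => ?_
    rw [mu_tmul, Algebra.smul_def, ← mul_assoc, ← map_mul, mul_div_cancel₀ _ hc0]

end Fermat.Agent.S17lib.CCR
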