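/-
S17lib / CCR / Gauss  (helper4)   — Project G, block CCR, part 2

The Gauss valuation ring `O ⊂ FΩ` of the constant-curve reduction, the reduction map
`red : O →+* Fk`, and the weak datum `gaussDatum : GaussDatum A FΩ Fk`:
`O = { x : x · mu b = mu a, rho b ≠ 0 }` (the localisation of `A · ι Fk` at the kernel of `rho`).
Also: `ι Fk ⊂ O`, `red ∘ ι = id`.
-/
import Mathlib
import Fermat.Agent.S17lib.CCR.Tensor
import Fermat.Agent.S18lib.Weak.Datum

set_option autoImplicit false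
set_option linter.unusedSectionVars false

noncomputable section

namespace Fermat.Agent.S17lib.CCR

open TensorProduct Module AlgebraicCurve Fermat.Agent.S18lib

variable {k Ω Fk FΩ : Type*} [Field k] [Field Ω] [Field Fk] [Field FΩ]
  [Algebra k Ω] [Algebra k Fk] [Algebra Ω FΩ] [Algebra k FΩ] [IsScalarTower k Ω FΩ]

variable {A : ValuationSubring Ω} [Algebra k A] [IsScalarTower k A Ω]
  [Algebra (IsLocalRing.ResidueField A) Fk] [IsScalarTower k (IsLocalRing.ResidueField A) Fk]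
  {ι : Fk →ₐ[k] FΩ}

variable (A ι) in
/-- membership in the Gauss ring -/
def IsGaussMem (x : FΩ) : Prop :=
  ∃ a b : A ⊗[k] Fk, rho (k := k) A b ≠ 0 ∧ x * mu A ι b = mu A ι a

theorem mu_ne_zero_of_rho (h : ConstData A ι) {b : A ⊗[k] Fk} (hb : rho (k := k) A b ≠ 0) :
    mu A ι b ≠ 0 := by
  intro h0
  have : b = 0 := mu_injective h (by rw [h0, map_zero])
  exact hb (by rw [this, map_zero])

theorem isGaussMem_one : IsGaussMem A ι (1 : FΩ) :=
  ⟨1, 1, by rw [map_one]; exact one_ne_zero, by rw [one_mul]⟩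

theorem isGaussMem_zero : IsGaussMem A ι (0 : FΩ) :=
  ⟨0, 1, by rw [map_one]; exact one_ne_zero, by rw [zero_mul, map_zero]⟩

theorem IsGaussMem.mul {x y : FΩ} (hx : IsGaussMem A ι x) (hy : IsGaussMem A ι y) :
    IsGaussMem A ι (x * y) := by
  obtain ⟨a, b, hb, hab⟩ := hx
  obtain ⟨a', b', hb', hab'⟩ := hy
  refine ⟨a * a', b * b', by rw [map_mul]; exact mul_ne_zero hb hb', ?_⟩
  rw [map_mul, map_mul, ← hab, ← hab']
  ring

theorem IsGaussMem.add {x y : FΩ} (hx : IsGaussMem A ι x) (hy : IsGaussMem A ι y) :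
    IsGaussMem A ι (x + y) := by
  obtain ⟨a, b, hb, hab⟩ := hx
  obtain ⟨a', b', hb', hab'⟩ := hy
  refine ⟨a * b' + a' * b, b * b', by rw [map_mul]; exact mul_ne_zero hb hb', ?_⟩
  rw [map_add, map_mul, map_mul, map_mul, ← hab, ← hab']
  ring

theorem IsGaussMem.neg {x : FΩ} (hx : IsGaussMem A ι x) : IsGaussMem A ι (-x) := by
  obtain ⟨a, b, hb, hab⟩ := hx
  exact ⟨-a, b, hb, by rw [map_neg, ← hab]; ring⟩

/-- constants of `A` as tensors -/
theorem mu_const_mul (c : A) (t : A ⊗[k] Fk) :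
    mu A ι (c ⊗ₜ[k] (1 : Fk) * t) = algebraMap Ω FΩ (c : Ω) * mu A ι t := by
  rw [map_mul, mu_tmul, map_one, mul_one]

theorem rho_const_mul (c : A) (t : A ⊗[k] Fk) :
    rho (k := k) A (c ⊗ₜ[k] (1 : Fk) * t) =
      algebraMap (IsLocalRing.ResidueField A) Fk (IsLocalRing.residue A c) * rho (k := k) A t := by
  rw [map_mul, rho_tmul, mul_one]

/-- a quotient `(c · mu t) / (c' · mu t')` of normalised elements with `c / c' ∈ A` is in `O` -/
theorem isGaussMem_of_normal {x : FΩ} {c c' : Ω} {t t' : A ⊗[k] Fk}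
    (hc' : c' ≠ 0) (ht' : rho (k := k) A t' ≠ 0) (hcc : c / c' ∈ A)
    (hx : x * (algebraMap Ω FΩ c' * mu A ι t') = algebraMap Ω FΩ c * mu A ι t) :
    IsGaussMem A ι x := by
  refine ⟨(⟨c / c', hcc⟩ : A) ⊗ₜ[k] (1 : Fk) * t, t', ht', ?_⟩
  rw [mu_const_mul]
  have hc'F : algebraMap Ω FΩ c' ≠ 0 := (map_ne_zero _).2 hc'
  show x * mu A ι t' = algebraMap Ω FΩ (c / c') * mu A ι t
  rw [map_div₀, div_mul_eq_mul_div, ← hx]
  field_simp

theorem isGaussMem_or_inv (h : ConstData A ι) (x : FΩ) :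
    IsGaussMem A ι x ∨ IsGaussMem A ι x⁻¹ := by
  by_cases hx0 : x = 0
  · left; rw [hx0]; exact isGaussMem_zero
  obtain ⟨a, b, ha, hb, hb0, hab⟩ := h.quot x
  have ha0 : a ≠ 0 := by rw [← hab]; exact mul_ne_zero hx0 hb0
  obtain ⟨c, t, hc, ht, rfl⟩ := h.exists_normal ha ha0
  obtain ⟨c', t', hc', ht', rfl⟩ := h.exists_normal hb hb0
  rcases A.mem_or_inv_mem (c / c') with hcc | hcc
  · left
    exact isGaussMem_of_normal hc' ht' hcc hab
  · right
    rw [inv_div] at hcc
    refine isGaussMem_of_normal (t := t') (t' := t) hc ht hcc ?_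
    rw [← hab]
    field_simp

variable (A ι) in
/-- **the Gauss valuation ring** of the constant-curve reduction -/
def gaussRing (h : ConstData A ι) : ValuationSubring FΩ where
  carrier := {x | IsGaussMem A ι x}
  mul_mem' hx hy := hx.mul hy
  one_mem' := isGaussMem_one
  add_mem' hx hy := hx.add hy
  zero_mem' := isGaussMem_zero
  neg_mem' hx := hx.neg
  mem_or_inv_mem' x := isGaussMem_or_inv h x

theorem mem_gaussRing (h : ConstData A ι) {x : FΩ} : x ∈ gaussRing A ι h ↔ IsGaussMem A ι x :=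
  Iff.rfl

theorem exists_redVal (h : ConstData A ι) (x : gaussRing A ι h) :
    ∃ r : Fk, ∀ a b : A ⊗[k] Fk, rho (k := k) A b ≠ 0 → (x : FΩ) * mu A ι b = mu A ι a →
      r = rho (k := k) A a / rho (k := k) A b := by
  obtain ⟨a₀, b₀, hb₀, hab₀⟩ := x.2
  refine ⟨rho (k := k) A a₀ / rho (k := k) A b₀, fun a b hb hab => ?_⟩
  rw [div_eq_div_iff hb₀ hb, ← map_mul, ← map_mul]
  congr 1
  apply mu_injective h
  rw [map_mul, map_mul, ← hab, ← hab₀]
  ring

/-- the reduction of an element of the Gauss ring -/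
def redFun (h : ConstData A ι) (x : gaussRing A ι h) : Fk := (exists_redVal h x).choose

theorem redFun_eq (h : ConstData A ι) (x : gaussRing A ι h) {a b : A ⊗[k] Fk}
    (hb : rho (k := k) A b ≠ 0) (hab : (x : FΩ) * mu A ι b = mu A ι a) :
    redFun h x = rho (k := k) A a / rho (k := k) A b :=
  (exists_redVal h x).choose_spec a b hb hab


/-- **the reduction map** `O →+* Fk` -/
def red (h : ConstData A ι) : gaussRing A ι h →+* Fk where
  toFun := redFun h
  map_one' := by
    rw [redFun_eq h 1 (a := 1) (b := 1) (by rw [map_one]; exact one_ne_zero) (by simp), map_one,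
      div_one]
  map_mul' x y := by
    obtain ⟨a, b, hb, hab⟩ := x.2
    obtain ⟨a', b', hb', hab'⟩ := y.2
    rw [redFun_eq h x hb hab, redFun_eq h y hb' hab',
      redFun_eq h (x * y) (a := a * a') (b := b * b')
        (by rw [map_mul]; exact mul_ne_zero hb hb')
        (by
          show ((x : FΩ) * (y : FΩ)) * _ = _
          rw [map_mul, map_mul, ← hab, ← hab']; ring),
      map_mul, map_mul, mul_div_mul_comm]
  map_zero' := by
    rw [redFun_eq h 0 (a := 0) (b := 1) (by rw [map_one]; exact one_ne_zero) (by simp), map_zero,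
      zero_div]
  map_add' x y := by
    obtain ⟨a, b, hb, hab⟩ := x.2
    obtain ⟨a', b', hb', hab'⟩ := y.2
    rw [redFun_eq h x hb hab, redFun_eq h y hb' hab',
      redFun_eq h (x + y) (a := a * b' + a' * b) (b := b * b')
        (by rw [map_mul]; exact mul_ne_zero hb hb')
        (by
          show ((x : FΩ) + (y : FΩ)) * _ = _
          rw [map_add, map_mul, map_mul, map_mul, ← hab, ← hab']; ring),
      map_add, map_mul, map_mul, map_mul, div_add_div _ _ hb hb', mul_comm (rho (k := k) A b) (rho (k := k) A a')]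

theorem red_eq (h : ConstData A ι) (x : gaussRing A ι h) {a b : A ⊗[k] Fk}
    (hb : rho (k := k) A b ≠ 0) (hab : (x : FΩ) * mu A ι b = mu A ι a) :
    red h x = rho (k := k) A a / rho (k := k) A b :=
  redFun_eq h x hb hab

theorem mu_mem_gaussRing (h : ConstData A ι) (t : A ⊗[k] Fk) : mu A ι t ∈ gaussRing A ι h :=
  ⟨t, 1, by rw [map_one]; exact one_ne_zero, by rw [map_one, mul_one]⟩

theorem red_mu (h : ConstData A ι) (t : A ⊗[k] Fk) :
    red h ⟨mu A ι t, mu_mem_gaussRing h t⟩ = rho (k := k) A t := by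
  rw [red_eq h _ (a := t) (b := 1) (by rw [map_one]; exact one_ne_zero)
    (by rw [map_one, mul_one]), map_one, div_one]

theorem iota_mem_gaussRing (h : ConstData A ι) (f : Fk) : ι f ∈ gaussRing A ι h := by
  have := mu_mem_gaussRing h ((1 : A) ⊗ₜ[k] f)
  rwa [mu_tmul, OneMemClass.coe_one, map_one, one_mul] at this

theorem red_iota (h : ConstData A ι) (f : Fk) : red h ⟨ι f, iota_mem_gaussRing h f⟩ = f := by
  have h1 : (⟨ι f, iota_mem_gaussRing h f⟩ : gaussRing A ι h) =
      ⟨mu A ι ((1 : A) ⊗ₜ[k] f), mu_mem_gaussRing h _⟩ := by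
    apply Subtype.ext
    show ι f = mu A ι ((1 : A) ⊗ₜ[k] f)
    rw [mu_tmul, OneMemClass.coe_one, map_one, one_mul]
  rw [h1, red_mu, rho_tmul, map_one, map_one, one_mul]

theorem const_mem_gaussRing (h : ConstData A ι) {c : Ω} (hc : c ∈ A) :
    algebraMap Ω FΩ c ∈ gaussRing A ι h := by
  have := mu_mem_gaussRing h ((⟨c, hc⟩ : A) ⊗ₜ[k] (1 : Fk))
  rwa [mu_tmul, map_one, mul_one] at this

theorem red_const (h : ConstData A ι) {c : Ω} (hc : c ∈ A) :
    red h ⟨algebraMap Ω FΩ c, const_mem_gaussRing h hc⟩ =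
      algebraMap (IsLocalRing.ResidueField A) Fk (IsLocalRing.residue A ⟨c, hc⟩) := by
  have h1 : (⟨algebraMap Ω FΩ c, const_mem_gaussRing h hc⟩ : gaussRing A ι h) =
      ⟨mu A ι ((⟨c, hc⟩ : A) ⊗ₜ[k] (1 : Fk)), mu_mem_gaussRing h _⟩ := by
    apply Subtype.ext
    show algebraMap Ω FΩ c = mu A ι ((⟨c, hc⟩ : A) ⊗ₜ[k] (1 : Fk))
    rw [mu_tmul, map_one, mul_one]
  rw [h1, red_mu, rho_tmul, mul_one]

/-- the residue of an element of `A` whose inverse is not in `A` vanishes -/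
theorem residue_eq_zero_of_inv_not_mem {c : Ω} (hc : c ∈ A) (hci : c⁻¹ ∉ A) :
    IsLocalRing.residue A ⟨c, hc⟩ = 0 := by
  rw [IsLocalRing.residue_eq_zero_iff, A.valuation_lt_one_iff]
  show A.valuation c < 1
  by_contra hlt
  rw [not_lt] at hlt
  apply hci
  rw [← A.valuation_le_one_iff, map_inv₀]
  exact inv_le_one_of_one_le₀ hlt

theorem const_mem_gaussRing_iff (h : ConstData A ι) (c : Ω) :
    algebraMap Ω FΩ c ∈ gaussRing A ι h ↔ c ∈ A := by
  refine ⟨fun hc => ?_, fun hc => const_mem_gaussRing h hc⟩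
  by_contra hcA
  obtain ⟨a, b, hb, hab⟩ := hc
  have hc0 : c ≠ 0 := by
    rintro rfl
    exact hcA A.zero_mem
  have hci : c⁻¹ ∈ A := (A.mem_or_inv_mem c).resolve_left hcA
  have hres : IsLocalRing.residue A ⟨c⁻¹, hci⟩ = 0 :=
    residue_eq_zero_of_inv_not_mem hci (by rwa [inv_inv])
  have hbe : b = (⟨c⁻¹, hci⟩ : A) ⊗ₜ[k] (1 : Fk) * a := by
    apply mu_injective h
    rw [mu_const_mul, ← hab, map_inv₀, ← mul_assoc,
      inv_mul_cancel₀ ((map_ne_zero (algebraMap Ω FΩ)).2 hc0), one_mul]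
  apply hb
  rw [hbe, rho_const_mul, hres, map_zero, zero_mul]

/-- **the weak (Gauss) datum of the constant-curve reduction** -/
def gaussDatum (h : ConstData A ι) : GaussDatum A FΩ Fk where
  O := gaussRing A ι h
  algebraMap_mem_iff := const_mem_gaussRing_iff h
  red := red h
  red_surjective f := ⟨⟨ι f, iota_mem_gaussRing h f⟩, red_iota h f⟩
  red_algebraMap a ha := red_const h a.2
  exists_const_mul_isUnit f hf := by
    obtain ⟨a, b, ha, hb, hb0, hab⟩ := h.quot f
    have ha0 : a ≠ 0 := by rw [← hab]; exact mul_ne_zero hf hb0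
    obtain ⟨c, t, hc, ht, rfl⟩ := h.exists_normal ha ha0
    obtain ⟨c', t', hc', ht', rfl⟩ := h.exists_normal hb hb0
    have hmt : mu A ι t ≠ 0 := mu_ne_zero_of_rho h ht
    have hmt' : mu A ι t' ≠ 0 := mu_ne_zero_of_rho h ht'
    have hu : mu A ι t / mu A ι t' ∈ gaussRing A ι h :=
      ⟨t, t', ht', by rw [div_mul_cancel₀ _ hmt']⟩
    have hui : mu A ι t' / mu A ι t ∈ gaussRing A ι h :=
      ⟨t', t, ht, by rw [div_mul_cancel₀ _ hmt]⟩
    refine ⟨c' / c, div_ne_zero hc' hc, ⟨⟨_, hu⟩, ⟨_, hui⟩, ?_, ?_⟩, ?_⟩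
    · apply Subtype.ext
      show mu A ι t / mu A ι t' * (mu A ι t' / mu A ι t) = 1
      field_simp
    · apply Subtype.ext
      show mu A ι t' / mu A ι t * (mu A ι t / mu A ι t') = 1
      field_simp
    · show algebraMap Ω FΩ (c' / c) * f = mu A ι t / mu A ι t'
      have hcF : algebraMap Ω FΩ c ≠ 0 := (map_ne_zero _).2 hc
      have hc'F : algebraMap Ω FΩ c' ≠ 0 := (map_ne_zero _).2 hc'
      rw [map_div₀, eq_div_iff hmt', div_mul_eq_mul_div, div_mul_eq_mul_div, div_eq_iff hcF]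
      linear_combination hab

@[simp] theorem gaussDatum_O (h : ConstData A ι) : (gaussDatum h).O = gaussRing A ι h := rfl

theorem gaussDatum_redF_iota (h : ConstData A ι) (f : Fk) : (gaussDatum h).redF (ι f) = f := by
  rw [GaussDatum.redF_of_mem _ (iota_mem_gaussRing h f)]
  exact red_iota h f

end Fermat.Agent.S17lib.CCR
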