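/-
S17lib / CCR / Frame  (helper4)   — Project G, block CCR, part 3

The frame of the constant-curve reduction: for `y₀ ∈ Fk`, `θ₀ : Fin n → Fk` independent over
`k[y₀]` and such that no `n + 1` elements of `FΩ` are independent over `Ω[ι y₀]`,
`(ι y₀, ι ∘ θ₀)` is a frame family of `gaussDatum h` (its reduction is `(y₀, θ₀)` itself).
-/
import Mathlib
import Fermat.Agent.S17lib.CCR.Gauss
import Fermat.Agent.S18lib.Weak.Frame
import Fermat.Agent.ProgramR.BarField.DegreeUpper

set_option autoImplicit false
set_option linter.unusedSectionVars false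

noncomputable section

namespace Fermat.Agent.S17lib.CCR

open TensorProduct Module AlgebraicCurve Polynomial Fermat.Agent.S18lib
open Fermat.Agent.ProgramR.BarField (powFamily linearIndependent_powFamily_of_poly
  poly_of_linearIndependent_powFamily)

variable {k Ω Fk FΩ : Type*} [Field k] [Field Ω] [Field Fk] [Field FΩ]
  [Algebra k Ω] [Algebra k Fk] [Algebra Ω FΩ] [Algebra k FΩ] [IsScalarTower k Ω FΩ]

variable {A : ValuationSubring Ω} [Algebra k A] [IsScalarTower k A Ω]
  [Algebra (IsLocalRing.ResidueField A) Fk] [IsScalarTower k (IsLocalRing.ResidueField A) Fk]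
  {ι : Fk →ₐ[k] FΩ}

/-- independence over `R[j]` in polynomial form ⇒ linear independence of all `j^a x_i`
(copy of `S18lib.V.linearIndependent_monomials_of_poly`, to avoid importing the `V` tree). -/
theorem linearIndependent_monomials_of_polyIndep {R B : Type*} [CommRing R] [CommRing B]
    [Algebra R B] {n : ℕ} (j : B) (x : Fin n → B)
    (hind : ∀ p : Fin n → R[X], ∑ i, aeval j (p i) * x i = 0 → ∀ i, p i = 0) :
    LinearIndependent R (fun m : ℕ × Fin n => j ^ m.1 * x m.2) := by
  classical
  rw [linearIndependent_iff_finset_linearIndependent]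
  intro s
  set D := s.sup (fun m => m.1) + 1 with hD
  have hlt : ∀ m : s, (m : ℕ × Fin n).1 < D := fun m =>
    Nat.lt_succ_of_le (Finset.le_sup (f := fun m : ℕ × Fin n => m.1) m.2)
  let g : s → Fin n × Fin D := fun m => ((m : ℕ × Fin n).2, ⟨(m : ℕ × Fin n).1, hlt m⟩)
  have hg : Function.Injective g := by
    intro m m' hmm
    simp only [g, Prod.mk.injEq, Fin.mk.injEq] at hmm
    exact Subtype.ext (Prod.ext hmm.2 hmm.1)
  have h1 := linearIndependent_powFamily_of_poly j x hind D
  exact h1.comp g hg

/-- linear disjointness for arbitrary families -/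
theorem ConstData.ld_family (h : ConstData A ι) {J : Type*} {v : J → Fk}
    (hv : LinearIndependent k v) : LinearIndependent Ω (fun j => ι (v j)) := by
  have h1 := h.ld (Set.range v) hv.linearIndepOn_id
  have hinj := hv.injective
  exact h1.comp (fun j => (⟨v j, Set.mem_range_self j⟩ : Set.range v))
    (fun a b hab => hinj (congrArg Subtype.val hab))

/-- independence over `k[y₀]` gives independence over `Ω[ι y₀]` -/
theorem ConstData.poly_indep (h : ConstData A ι) {y₀ : Fk} {n : ℕ} {θ₀ : Fin n → Fk}
    (hind : ∀ p : Fin n → k[X], ∑ i, aeval y₀ (p i) * θ₀ i = 0 → ∀ i, p i = 0) :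
    ∀ p : Fin n → Polynomial Ω, ∑ i, aeval (ι y₀) (p i) * ι (θ₀ i) = 0 → ∀ i, p i = 0 := by
  apply poly_of_linearIndependent_powFamily
  intro D
  have h1 := linearIndependent_powFamily_of_poly y₀ θ₀ hind D
  have h2 := h.ld_family h1
  have h3 : (fun ik => ι (powFamily y₀ θ₀ D ik)) = powFamily (ι y₀) (fun i => ι (θ₀ i)) D := by
    funext ik
    simp [powFamily, map_mul, map_pow]
  rw [h3] at h2
  exact h2

/-- **the frame of the constant-curve reduction** -/
theorem isFrameFamily (h : ConstData A ι) {y₀ : Fk} {n : ℕ} (hn : 0 < n) {θ₀ : Fin n → Fk}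
    (hind : ∀ p : Fin n → k[X], ∑ i, aeval y₀ (p i) * θ₀ i = 0 → ∀ i, p i = 0)
    (hcard : ∀ x : Fin (n + 1) → FΩ,
      ¬ ∀ p : Fin (n + 1) → Polynomial Ω, ∑ i, aeval (ι y₀) (p i) * x i = 0 → ∀ i, p i = 0) :
    WFrame.IsFrameFamily (gaussDatum h) (ι y₀) (fun i => ι (θ₀ i)) where
  n_pos := hn
  y_mem := iota_mem_gaussRing h y₀
  θ_mem i := iota_mem_gaussRing h (θ₀ i)
  exists_repr f := by
    by_contra hcon
    refine hcard (Fin.cons f fun i => ι (θ₀ i)) fun p hp => ?_
    rw [Fin.sum_univ_succ] at hp
    simp only [Fin.cons_zero, Fin.cons_succ] at hp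
    have hp0 : p 0 = 0 := by
      by_contra h0
      refine hcon ⟨p 0, fun i => - p i.succ, h0, ?_⟩
      simp only [map_neg, neg_mul, Finset.sum_neg_distrib]
      linear_combination hp
    rw [hp0, map_zero, zero_mul, zero_add] at hp
    have h2 := h.poly_indep hind (fun i => p i.succ) hp
    intro i
    exact Fin.cases hp0 h2 i
  red_indep := by
    have h1 := linearIndependent_monomials_of_polyIndep (R := k) y₀ θ₀ hind
    have h2 := linearIndependent_resField (A := A) h.res_surj h1
    have h3 : (fun m : ℕ × Fin n => (gaussDatum h).redF (ι y₀) ^ m.1 *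
        (gaussDatum h).redF (ι (θ₀ m.2))) = fun m : ℕ × Fin n => y₀ ^ m.1 * θ₀ m.2 := by
      funext m
      rw [gaussDatum_redF_iota, gaussDatum_redF_iota]
    rw [h3]
    exact h2

end Fermat.Agent.S17lib.CCR
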