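/-
S17lib / CCR / Red  (helper4)   — Project G, block CCR, part 4

**The reduction datum of a constant curve in equal characteristic** (`B2.exists_redDatum` applied
to `gaussDatum h` and the frame `(ι y₀, ι ∘ θ₀)`):

  `exists_redDatum : ∃ D : RedDatum A FΩ Fk, D.toGaussDatum = gaussDatum h`

from `IsCurveOfGenus Ω FΩ g`, `IsCurveOfGenus k Fk g` (same genus) and
`deg (ι y₀)_∞ = deg (y₀)_∞`.  The `ResidueField A`-structure of `Fk` is the given one (compatible
with the `k`-structure through `k ≃ ResidueField A`); `IsCurveOfGenus` is transported along this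
isomorphism (`S27lib.BR.Transport`).
-/
import Mathlib
import Fermat.Agent.S17lib.CCR.Frame
import Fermat.Agent.S37lib.Red.Main
import Fermat.Agent.S27lib.BR.Curve

set_option autoImplicit false
set_option linter.unusedSectionVars false
set_option linter.style.haveILetI false

noncomputable section

namespace Fermat.Agent.S17lib.CCR

open TensorProduct Module AlgebraicCurve Polynomial IntermediateField Fermat.Agent.S18lib
open Fermat.Agent.S27lib.BR

variable {k Ω Fk FΩ : Type*} [Field k] [Field Ω] [Field Fk] [Field FΩ]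
  [Algebra k Ω] [Algebra k Fk] [Algebra Ω FΩ] [Algebra k FΩ] [IsScalarTower k Ω FΩ]

variable {A : ValuationSubring Ω} [Algebra k A] [IsScalarTower k A Ω]
  [Algebra (IsLocalRing.ResidueField A) Fk] [IsScalarTower k (IsLocalRing.ResidueField A) Fk]
  {ι : Fk →ₐ[k] FΩ}

local notation "kA" => IsLocalRing.ResidueField A

/-- the ring isomorphism `k ≃ ResidueField A` -/
def resEquiv (h : ConstData A ι) : k ≃+* IsLocalRing.ResidueField A :=
  RingEquiv.ofBijective (algebraMap k (IsLocalRing.ResidueField A))
    ⟨(algebraMap k (IsLocalRing.ResidueField A)).injective, h.res_surj⟩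

@[simp] theorem resEquiv_apply (h : ConstData A ι) (a : k) :
    resEquiv h a = algebraMap k (IsLocalRing.ResidueField A) a := rfl

theorem resEquiv_comm (h : ConstData A ι) (a : k) :
    (RingEquiv.refl Fk) (algebraMap k Fk a) =
      algebraMap (IsLocalRing.ResidueField A) Fk (resEquiv h a) :=
  IsScalarTower.algebraMap_apply k (IsLocalRing.ResidueField A) Fk a

/-- `Fk` as a curve over the residue field of `A` -/
theorem isCurveOfGenus_res (h : ConstData A ι) {g : ℕ} (hFk : IsCurveOfGenus k Fk g) :
    IsCurveOfGenus (IsLocalRing.ResidueField A) Fk g :=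
  Transport.isCurveOfGenus (resEquiv h) (RingEquiv.refl Fk) (resEquiv_comm h) hFk

/-- places of `Fk / k` and of `Fk / ResidueField A` -/
def resPlaceEquiv (h : ConstData A ι) : Place k Fk ≃ Place (IsLocalRing.ResidueField A) Fk :=
  Transport.placeEquiv (resEquiv h) (RingEquiv.refl Fk) (resEquiv_comm h)

theorem ord_resPlaceEquiv (h : ConstData A ι) (P : Place k Fk) (f : Fk) :
    (resPlaceEquiv h P).ord f = P.ord f :=
  Transport.ord_placeMap (resEquiv h) (RingEquiv.refl Fk) (resEquiv_comm h) P f

theorem ord_resPlaceEquiv_symm (h : ConstData A ι) (Q : Place (IsLocalRing.ResidueField A) Fk)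
    (f : Fk) : ((resPlaceEquiv h).symm Q).ord f = Q.ord f :=
  Transport.ord_placeEquiv_symm (resEquiv h) (RingEquiv.refl Fk) (resEquiv_comm h) Q f

theorem degree_polesOf_res (h : ConstData A ι) [HasPrincipalDivisors k Fk]
    [HasPrincipalDivisors (IsLocalRing.ResidueField A) Fk] (f : Fk) :
    Divisor.degree (polesOf (K := IsLocalRing.ResidueField A) f) =
      Divisor.degree (polesOf (K := k) f) := by
  have h1 : polesOf (K := IsLocalRing.ResidueField A) f =
      Transport.divEquiv (resEquiv h) (RingEquiv.refl Fk) (resEquiv_comm h)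
        (polesOf (K := k) f) := by
    ext Q
    rw [Transport.divEquiv_apply, polesOf_apply, polesOf_apply]
    congr 2
  rw [h1, Transport.degree_divEquiv]

/-- **(C2) the reduction datum of the constant-curve reduction** -/
theorem exists_redDatum [CharZero Ω] [Infinite k] [HasPrincipalDivisors Ω FΩ]
    [HasPrincipalDivisors k Fk] (h : ConstData A ι) {y₀ : Fk} {n : ℕ} (hn : 0 < n)
    {θ₀ : Fin n → Fk}
    (hind : ∀ p : Fin n → k[X], ∑ i, aeval y₀ (p i) * θ₀ i = 0 → ∀ i, p i = 0)
    (hcard : ∀ x : Fin (n + 1) → FΩ,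
      ¬ ∀ p : Fin (n + 1) → Polynomial Ω, ∑ i, aeval (ι y₀) (p i) * x i = 0 → ∀ i, p i = 0)
    [FiniteDimensional Ω⟮ι y₀⟯ FΩ] {g : ℕ}
    (hF : IsCurveOfGenus Ω FΩ g) (hFk : IsCurveOfGenus k Fk g)
    (hdeg : Divisor.degree (polesOf (K := Ω) (ι y₀)) = Divisor.degree (polesOf (K := k) y₀)) :
    ∃ D : RedDatum A FΩ Fk, D.toGaussDatum = gaussDatum h := by
  have hFk' := isCurveOfGenus_res h hFk
  haveI : Infinite (IsLocalRing.ResidueField A) :=
    Infinite.of_injective (resEquiv h) (resEquiv h).injective
  haveI := hFk'.hasPrincipalDivisors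
  have hfr := isFrameFamily h hn hind hcard
  have hy : Transcendental Ω (ι y₀) := by
    rw [Transcendental]
    intro halg
    obtain ⟨p, hp0, hp⟩ := halg
    exact hfr.aeval_ne_zero hp0 hp
  refine Fermat.Agent.S37lib.B2.exists_redDatum (gaussDatum h) hfr hy hF hFk' ?_
  rw [gaussDatum_redF_iota, degree_polesOf_res h, hdeg]

end Fermat.Agent.S17lib.CCR
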