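/-
S17lib / CCR / Main  (helper4)   — Project G, block CCR, part 6

**(C2), final abstract form.**  `k ⊂ Ω` algebraically closed of characteristic `0`,
`ι : Fk →ₐ[k] FΩ` a constant field extension (`ConstExt Ω ι`: linear disjointness + generation),
both sides curves of the same genus, `A ⊂ Ω` a valuation ring over `k` with residue field `k`:

  `ConstExt.exists_redDatum : ∃ D : RedDatum A FΩ Fk, D.toGaussDatum = gaussDatum _`.

No hypothesis on degrees any more: `deg (ι f)_∞ = deg (f)_∞` is `ConstExt.degree_polesOf_iota`.
-/
import Mathlib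
import Fermat.Agent.S17lib.CCR.Red
import Fermat.Agent.S17lib.CCR.Degree
import Fermat.Agent.S18lib.Weak.PolyAdapter

set_option autoImplicit false
set_option linter.unusedSectionVars false
set_option linter.style.haveILetI false

noncomputable section

namespace Fermat.Agent.S17lib.CCR

open Module Polynomial IntermediateField AlgebraicCurve Fermat.Agent.S18lib

variable {k Ω Fk FΩ : Type*} [Field k] [Field Ω] [Field Fk] [Field FΩ]
  [Algebra k Ω] [Algebra k Fk] [Algebra Ω FΩ] [Algebra k FΩ] [IsScalarTower k Ω FΩ]
  {ι : Fk →ₐ[k] FΩ}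

/-- **constant field extension preserves the degree of the pole divisor** -/
theorem ConstExt.degree_polesOf_iota [CharZero k] [IsAlgClosed k] [IsAlgClosed Ω]
    [HasPrincipalDivisors Ω FΩ] [HasPrincipalDivisors k Fk] (h : ConstExt Ω ι) {f : Fk}
    (hf : Transcendental k f) [FiniteDimensional k⟮f⟯ Fk] :
    Divisor.degree (polesOf (K := Ω) (ι f)) = Divisor.degree (polesOf (K := k) f) := by
  haveI : CharZero Ω := charZero_of_injective_algebraMap (algebraMap k Ω).injective
  haveI := h.finiteDimensional f
  haveI : Algebra.IsSeparable Ω⟮ι f⟯ FΩ := Algebra.IsAlgebraic.isSeparable_of_perfectField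
  haveI : Algebra.IsSeparable k⟮f⟯ Fk := Algebra.IsAlgebraic.isSeparable_of_perfectField
  rw [degree_polesOf_eq_finrank_adjoin Ω (h.transcendental_iota hf),
    degree_polesOf_eq_finrank_adjoin k hf, h.finrank_eq hf]

/-- **(C2)**: the reduction datum of a constant field extension along a valuation ring of the
big constant field with residue field the small constant field. -/
theorem ConstExt.exists_redDatum [CharZero k] [IsAlgClosed k] [IsAlgClosed Ω] (h : ConstExt Ω ι)
    (A : ValuationSubring Ω) [Algebra k A] [IsScalarTower k A Ω]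
    [Algebra (IsLocalRing.ResidueField A) Fk] [IsScalarTower k (IsLocalRing.ResidueField A) Fk]
    (hres : Function.Surjective (algebraMap k (IsLocalRing.ResidueField A))) {g : ℕ}
    (hF : IsCurveOfGenus Ω FΩ g) (hFk : IsCurveOfGenus k Fk g)
    {y₀ : Fk} (hy₀ : Transcendental k y₀) [FiniteDimensional k⟮y₀⟯ Fk] :
    ∃ D : RedDatum A FΩ Fk, D.toGaussDatum = gaussDatum (h.constData A hres) := by
  haveI : CharZero Ω := charZero_of_injective_algebraMap (algebraMap k Ω).injective
  haveI : Infinite k := IsAlgClosed.instInfinite
  haveI := hF.hasPrincipalDivisors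
  haveI := hFk.hasPrincipalDivisors
  haveI := h.finiteDimensional y₀
  have hn : 0 < finrank k⟮y₀⟯ Fk := finrank_pos
  exact CCR.exists_redDatum (h.constData A hres) hn (poly_indep_finBasis hy₀)
    (h.not_poly_indep hy₀) hF hFk (h.degree_polesOf_iota hy₀)

end Fermat.Agent.S17lib.CCR
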