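/-
S17lib / CCR / Genus  (helper4)   — Project G, block CCR, part 7

**(C1): constant field extension preserves the genus.**  `k ⊂ Ω` algebraically closed of
characteristic `0`, `ConstExt Ω ι`, `Fk / k` a curve of genus `g`  ⇒  `FΩ / Ω` is a curve of genus
`g` (`ConstExt.isCurveOfGenus`).
* `g_Ω ≤ g` : `ι L_k(m (y₀)_∞) ⊂ L_Ω(m (ι y₀)_∞)` (integrality dictionary) + linear disjointness +
  `deg (ι y₀)_∞ = deg (y₀)_∞`;
* `g ≤ g_Ω` : `GaussDatum.genus_le_of_frame` for the Gauss datum of ANY valuation ring `A ⊂ Ω` over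
  `k` with residue field `k` (hypothesis: such an `A` is given).
-/
import Mathlib
import Fermat.Agent.S17lib.CCR.Main
import Fermat.Agent.S18lib.Weak.GenusLe

set_option autoImplicit false
set_option linter.unusedSectionVars false
set_option linter.style.haveILetI false

noncomputable section

namespace Fermat.Agent.S17lib.CCR

open Module Polynomial IntermediateField AlgebraicCurve Fermat.Agent.S18lib
open Fermat.Agent.ProgramR

variable {k Ω Fk FΩ : Type*} [Field k] [Field Ω] [Field Fk] [Field FΩ]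
  [Algebra k Ω] [Algebra k Fk] [Algebra Ω FΩ] [Algebra k FΩ] [IsScalarTower k Ω FΩ]
  {ι : Fk →ₐ[k] FΩ}

/-- `ι` maps `k[z]` into `Ω[ι z]` -/
theorem iota_mem_algebra_adjoin {z a : Fk} (ha : a ∈ Algebra.adjoin k ({z} : Set Fk)) :
    ι a ∈ Algebra.adjoin Ω ({ι z} : Set FΩ) := by
  induction ha using Algebra.adjoin_induction with
  | mem x hx =>
    rw [Set.mem_singleton_iff] at hx
    rw [hx]
    exact Algebra.subset_adjoin rfl
  | algebraMap c =>
    rw [AlgHom.commutes, IsScalarTower.algebraMap_apply k Ω FΩ]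
    exact Subalgebra.algebraMap_mem _ _
  | add x y _ _ hx hy =>
    rw [map_add]
    exact Subalgebra.add_mem _ hx hy
  | mul x y _ _ hx hy =>
    rw [map_mul]
    exact Subalgebra.mul_mem _ hx hy

/-- integrality over `k[z]` is preserved by `ι` -/
theorem isIntegral_iota {z x : Fk} (hx : IsIntegral (Algebra.adjoin k ({z} : Set Fk)) x) :
    IsIntegral (Algebra.adjoin Ω ({ι z} : Set FΩ)) (ι x) := by
  let φ : Algebra.adjoin k ({z} : Set Fk) →+* Algebra.adjoin Ω ({ι z} : Set FΩ) :=
    ((ι : Fk →+* FΩ).comp (Algebra.adjoin k ({z} : Set Fk)).val.toRingHom).codRestrict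
      (Algebra.adjoin Ω ({ι z} : Set FΩ)) fun a => iota_mem_algebra_adjoin a.2
  exact hx.map_of_comp_eq φ (ι : Fk →+* FΩ) (by ext a; rfl)

/-- **key lemma**: `ι L_k(m (y₀)_∞) ⊂ L_Ω(m (ι y₀)_∞)` -/
theorem iota_mem_riemannRochSpace_polesOf [CharZero k] [HasPrincipalDivisors Ω FΩ]
    [HasPrincipalDivisors k Fk] {y₀ : Fk} (hy₀ : Transcendental k y₀)
    [FiniteDimensional k⟮y₀⟯ Fk] (m : ℕ) {x : Fk}
    (hx : x ∈ riemannRochSpace ((m : ℤ) • polesOf (K := k) y₀)) :
    ι x ∈ riemannRochSpace ((m : ℤ) • polesOf (K := Ω) (ι y₀)) := by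
  by_cases hx0 : x = 0
  · rw [hx0, map_zero]; exact Submodule.zero_mem _
  have hy0 : y₀ ≠ 0 := by
    rintro rfl
    exact hy₀ (isAlgebraic_zero)
  have hιx0 : ι x ≠ 0 := (map_ne_zero ι).2 hx0
  have hιy0 : ι y₀ ≠ 0 := (map_ne_zero ι).2 hy0
  rw [mem_riemannRochSpace_iff] at hx
  have hford : ∀ P : Place k Fk, -((m : ℤ) * max (-P.ord y₀) 0) ≤ P.ord x := by
    intro P
    rcases hx P with h | h
    · exact absurd h hx0
    · rwa [Finsupp.smul_apply, polesOf_apply, smul_eq_mul] at h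
  -- finite chart
  have h1 : ∀ P : Place k Fk, y₀ ∈ P.toValuationSubring → x ∈ P.toValuationSubring := by
    intro P hP
    rw [FF.mem_iff_ord_nonneg] at hP ⊢
    have := hford P
    rw [max_eq_right (by linarith)] at this
    linarith
  -- chart at infinity
  have hyinv : Transcendental k y₀⁻¹ := FF.transcendental_inv hy₀
  have : FiniteDimensional k⟮y₀⁻¹⟯ Fk := by rw [FF.adjoin_inv_eq (K := k) y₀]; infer_instance
  have hpow0 : (y₀⁻¹) ^ m ≠ 0 := pow_ne_zero _ (inv_ne_zero hy0)
  have h2 : ∀ P : Place k Fk, y₀⁻¹ ∈ P.toValuationSubring →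
      x * (y₀⁻¹) ^ m ∈ P.toValuationSubring := by
    intro P hP
    rw [FF.mem_iff_ord_nonneg] at hP ⊢
    rw [P.ord_inv] at hP
    rw [P.ord_mul hx0 hpow0, ← zpow_natCast, P.ord_zpow, P.ord_inv]
    have := hford P
    rw [max_eq_left (by linarith)] at this
    nlinarith
  have hint1 := isIntegral_iota (Ω := Ω) (ι := ι) (isIntegral_adjoin_of_forall_mem y₀ hy₀ h1)
  have hint2 := isIntegral_iota (Ω := Ω) (ι := ι)
    (isIntegral_adjoin_of_forall_mem y₀⁻¹ hyinv h2)
  rw [mem_riemannRochSpace_iff]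
  intro Q
  right
  rw [Finsupp.smul_apply, polesOf_apply, smul_eq_mul]
  rcases le_or_gt 0 (Q.ord (ι y₀)) with hQ | hQ
  · have hmem := mem_of_isIntegral_adjoin Q ((FF.mem_iff_ord_nonneg Q _).2 hQ) hint1
    rw [FF.mem_iff_ord_nonneg] at hmem
    rw [max_eq_right (by linarith)]
    linarith
  · have hQ' : ι y₀⁻¹ ∈ Q.toValuationSubring := by
      rw [map_inv₀, FF.mem_iff_ord_nonneg, Q.ord_inv]; linarith
    have hmem := mem_of_isIntegral_adjoin Q hQ' hint2
    rw [map_mul, map_pow, map_inv₀, FF.mem_iff_ord_nonneg,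
      Q.ord_mul hιx0 (pow_ne_zero _ (inv_ne_zero hιy0)), ← zpow_natCast, Q.ord_zpow,
      Q.ord_inv] at hmem
    rw [max_eq_left (by linarith)]
    nlinarith

/-- `l_k(m (y₀)_∞) ≤ l_Ω(m (ι y₀)_∞)` -/
theorem ConstExt.finrank_polesOf_le [CharZero k] [HasPrincipalDivisors Ω FΩ]
    [HasPrincipalDivisors k Fk] (h : ConstExt Ω ι) {y₀ : Fk} (hy₀ : Transcendental k y₀)
    [FiniteDimensional k⟮y₀⟯ Fk] (m : ℕ)
    [FiniteDimensional k (riemannRochSpace ((m : ℤ) • polesOf (K := k) y₀))]
    [FiniteDimensional Ω (riemannRochSpace ((m : ℤ) • polesOf (K := Ω) (ι y₀)))] :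
    finrank k (riemannRochSpace ((m : ℤ) • polesOf (K := k) y₀)) ≤
      finrank Ω (riemannRochSpace ((m : ℤ) • polesOf (K := Ω) (ι y₀))) := by
  set W := riemannRochSpace ((m : ℤ) • polesOf (K := k) y₀) with hW
  set V := riemannRochSpace ((m : ℤ) • polesOf (K := Ω) (ι y₀)) with hV
  let b := finBasis k W
  have hli : LinearIndependent k (fun i => ((b i : W) : Fk)) :=
    b.linearIndependent.map' W.subtype (Submodule.ker_subtype W)
  have hli2 := h.ld_family hli
  let b' : Fin (finrank k W) → V := fun i =>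
    ⟨ι ((b i : W) : Fk), iota_mem_riemannRochSpace_polesOf hy₀ m (b i).2⟩
  have hli3 : LinearIndependent Ω b' := by
    apply LinearIndependent.of_comp V.subtype
    exact hli2
  have := hli3.fintype_card_le_finrank
  simpa using this


/-- **(C1): constant field extension preserves the genus** -/
theorem ConstExt.isCurveOfGenus [CharZero k] [IsAlgClosed k] [IsAlgClosed Ω] (h : ConstExt Ω ι)
    (A : ValuationSubring Ω) [Algebra k A] [IsScalarTower k A Ω]
    [Algebra (IsLocalRing.ResidueField A) Fk] [IsScalarTower k (IsLocalRing.ResidueField A) Fk]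
    (hres : Function.Surjective (algebraMap k (IsLocalRing.ResidueField A))) {g : ℕ}
    (hFk : IsCurveOfGenus k Fk g) {y₀ : Fk} (hy₀ : Transcendental k y₀)
    [FiniteDimensional k⟮y₀⟯ Fk] : IsCurveOfGenus Ω FΩ g := by
  haveI : CharZero Ω := charZero_of_injective_algebraMap (algebraMap k Ω).injective
  haveI := h.finiteDimensional y₀
  haveI : Algebra.IsSeparable Ω⟮ι y₀⟯ FΩ := Algebra.IsAlgebraic.isSeparable_of_perfectField
  have hιy := h.transcendental_iota hy₀
  have hF := RRgen.Canonical.isCurveOfGenus_genusOf Ω hιy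
  obtain ⟨g', hg'⟩ : ∃ g', g' = RRgen.Canonical.genusOf Ω hιy := ⟨_, rfl⟩
  rw [← hg'] at hF
  suffices hgg : g' = g by rw [← hgg]; exact hF
  haveI := hF.hasPrincipalDivisors
  haveI := hFk.hasPrincipalDivisors
  have hdeg := h.degree_polesOf_iota hy₀
  apply le_antisymm
  · -- `g' ≤ g` : dimension count
    have hδ := GaussDatum.degree_polesOf_pos hFk hy₀
    set δ : ℤ := Divisor.degree (polesOf (K := k) y₀) with hδdef
    set m : ℕ := 2 * g + 2 * g' + 1 with hm
    have hdegE : Divisor.degree ((m : ℤ) • polesOf (K := k) y₀) = m * δ := by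
      rw [map_zsmul, smul_eq_mul]
    have hdegEΩ : Divisor.degree ((m : ℤ) • polesOf (K := Ω) (ι y₀)) = m * δ := by
      rw [map_zsmul, smul_eq_mul, hdeg]
    have hbig : (2 * g + 2 * g' + 1 : ℤ) ≤ m * δ := by
      have h1 : (m : ℤ) = 2 * g + 2 * g' + 1 := by rw [hm]; push_cast; ring
      have h2 : (0 : ℤ) ≤ m := by positivity
      nlinarith
    have := hFk.finiteDimensional ((m : ℤ) • polesOf (K := k) y₀)
    have := hF.finiteDimensional ((m : ℤ) • polesOf (K := Ω) (ι y₀))
    have h1 := hFk.riemann_eq ((m : ℤ) • polesOf (K := k) y₀) (by rw [hdegE]; linarith)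
    have h2 := hF.riemann_eq ((m : ℤ) • polesOf (K := Ω) (ι y₀)) (by rw [hdegEΩ]; linarith)
    have h3 := h.finrank_polesOf_le hy₀ m
    rw [hdegE] at h1
    rw [hdegEΩ] at h2
    have h4 : (finrank k (riemannRochSpace ((m : ℤ) • polesOf (K := k) y₀)) : ℤ) ≤
        (finrank Ω (riemannRochSpace ((m : ℤ) • polesOf (K := Ω) (ι y₀))) : ℤ) := by
      exact_mod_cast h3
    rw [h1, h2] at h4
    omega
  · -- `g ≤ g'` : the frame of the Gauss datum
    have hC := h.constData A hres
    have hFk' := isCurveOfGenus_res hC hFk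
    haveI := hFk'.hasPrincipalDivisors
    have hfr := isFrameFamily hC finrank_pos (poly_indep_finBasis hy₀) (h.not_poly_indep hy₀)
    refine GaussDatum.genus_le_of_frame (gaussDatum hC) hfr hιy hF hFk' ?_
    rw [gaussDatum_redF_iota, degree_polesOf_res hC, hdeg]

/-- **(C1)+(C2)**: genus and reduction datum of a constant field extension, from the curve
structure of `Fk / k` alone. -/
theorem ConstExt.exists_redDatum' [CharZero k] [IsAlgClosed k] [IsAlgClosed Ω] (h : ConstExt Ω ι)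
    (A : ValuationSubring Ω) [Algebra k A] [IsScalarTower k A Ω]
    [Algebra (IsLocalRing.ResidueField A) Fk] [IsScalarTower k (IsLocalRing.ResidueField A) Fk]
    (hres : Function.Surjective (algebraMap k (IsLocalRing.ResidueField A))) {g : ℕ}
    (hFk : IsCurveOfGenus k Fk g) {y₀ : Fk} (hy₀ : Transcendental k y₀)
    [FiniteDimensional k⟮y₀⟯ Fk] :
    IsCurveOfGenus Ω FΩ g ∧
      ∃ D : RedDatum A FΩ Fk, D.toGaussDatum = gaussDatum (h.constData A hres) :=
  ⟨h.isCurveOfGenus A hres hFk hy₀,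
    h.exists_redDatum A hres (h.isCurveOfGenus A hres hFk hy₀) hFk hy₀⟩

end Fermat.Agent.S17lib.CCR
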