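/-
S17lib / CCR / Pic  (helper4)   — Project G, block CCR, part 8

The specialisation homomorphism of a reduction datum, generic:
`redPic0Hom D : Pic0 L F →+ Pic0 (ResidueField A) Fk`, `[E] ↦ [r_* E]`,
and, for the constant-curve reduction, its version with values in `Pic0 k Fk`:
`specPlace h D : Place Ω FΩ → Place k Fk`, `specPic0 h D : Pic0 Ω FΩ →+ Pic0 k Fk`,
`specPic0_mk : specPic0 h D (Pic0.mk E) = Pic0.mk ⟨mapDomain (specPlace h D) E, _⟩`.
-/
import Mathlib
import Fermat.Agent.S17lib.CCR.Red
import Fermat.Agent.S18lib.Setup.DatumDiv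

set_option autoImplicit false
set_option linter.unusedSectionVars false
set_option linter.style.haveILetI false

noncomputable section

namespace Fermat.Agent.S17lib.CCR

open AlgebraicCurve Fermat.Agent.S18lib Fermat.Agent.S27lib.BR

section Generic

variable {L : Type*} [Field L] {A : ValuationSubring L}
variable {F : Type*} [Field F] [Algebra L F]
variable {Fk : Type*} [Field Fk] [Algebra (IsLocalRing.ResidueField A) Fk]
variable (D : RedDatum A F Fk)
variable [HasPrincipalDivisors L F] [HasPrincipalDivisors (IsLocalRing.ResidueField A) Fk]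

/-- `r_*` on divisors of degree zero -/
def redDegZeroHom : Divisor.degZero (K := L) (F := F) →+
    Divisor.degZero (K := IsLocalRing.ResidueField A) (F := Fk) :=
  ((Finsupp.mapDomain.addMonoidHom D.r).comp
    (Divisor.degZero (K := L) (F := F)).subtype).codRestrict _ fun E => by
    rw [Divisor.mem_degZero]
    show Divisor.degree (Finsupp.mapDomain D.r (E : Divisor L F)) = 0
    rw [D.degree_mapDomain]
    exact E.2

@[simp] theorem coe_redDegZeroHom (E : Divisor.degZero (K := L) (F := F)) :
    (redDegZeroHom D E : Divisor (IsLocalRing.ResidueField A) Fk) =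
      Finsupp.mapDomain D.r (E : Divisor L F) := rfl

/-- **the specialisation homomorphism** `Pic⁰(F) → Pic⁰(Fk)` of a reduction datum -/
def redPic0Hom : Pic0 L F →+ Pic0 (IsLocalRing.ResidueField A) Fk :=
  QuotientAddGroup.map _ _ (redDegZeroHom D) (by
    rintro ⟨E, hE0⟩ hE
    simp only [AddSubgroup.mem_addSubgroupOf, AddSubgroup.mem_comap] at hE ⊢
    exact D.mapDomain_mem_principal hE)

theorem redPic0Hom_mk (E : Divisor.degZero (K := L) (F := F)) :
    redPic0Hom D (Pic0.mk E) = Pic0.mk (redDegZeroHom D E) := rfl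

end Generic

section Const

variable {k Ω Fk FΩ : Type*} [Field k] [Field Ω] [Field Fk] [Field FΩ]
  [Algebra k Ω] [Algebra k Fk] [Algebra Ω FΩ] [Algebra k FΩ] [IsScalarTower k Ω FΩ]

variable {A : ValuationSubring Ω} [Algebra k A] [IsScalarTower k A Ω]
  [Algebra (IsLocalRing.ResidueField A) Fk] [IsScalarTower k (IsLocalRing.ResidueField A) Fk]
  {ι : Fk →ₐ[k] FΩ}

variable (h : ConstData A ι) (D : RedDatum A FΩ Fk)

/-- the place map with values in the places of `Fk / k` -/
def specPlace : Place Ω FΩ → Place k Fk := fun P => (resPlaceEquiv h).symm (D.r P)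

theorem ord_specPlace (P : Place Ω FΩ) (f : Fk) : (specPlace h D P).ord f = (D.r P).ord f :=
  ord_resPlaceEquiv_symm h (D.r P) f

theorem resPlaceEquiv_specPlace (P : Place Ω FΩ) : resPlaceEquiv h (specPlace h D P) = D.r P :=
  (resPlaceEquiv h).apply_symm_apply _

variable [HasPrincipalDivisors Ω FΩ] [HasPrincipalDivisors k Fk]
  [HasPrincipalDivisors (IsLocalRing.ResidueField A) Fk]

/-- **the specialisation homomorphism** `Pic⁰(FΩ) → Pic⁰(Fk / k)` -/
def specPic0 : Pic0 Ω FΩ →+ Pic0 k Fk :=
  ((Transport.pic0Equiv (resEquiv h) (RingEquiv.refl Fk) (resEquiv_comm h)).symm :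
      Pic0 (IsLocalRing.ResidueField A) Fk →+ Pic0 k Fk).comp (redPic0Hom D)

theorem mapDomain_specPlace (E : Divisor Ω FΩ) :
    Finsupp.mapDomain (specPlace h D) E =
      (Transport.divEquiv (resEquiv h) (RingEquiv.refl Fk) (resEquiv_comm h)).symm
        (Finsupp.mapDomain D.r E) := by
  have h1 : specPlace h D = (resPlaceEquiv h).symm ∘ D.r := rfl
  rw [h1, Finsupp.mapDomain_comp]
  ext Q
  rw [Finsupp.mapDomain_equiv_apply]
  rfl

theorem degree_mapDomain_specPlace (E : Divisor Ω FΩ) :
    Divisor.degree (Finsupp.mapDomain (specPlace h D) E) = Divisor.degree E := by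
  rw [mapDomain_specPlace, ← Transport.degree_divEquiv (resEquiv h) (RingEquiv.refl Fk)
    (resEquiv_comm h), AddEquiv.apply_symm_apply, D.degree_mapDomain]

/-- `r_*` on divisors of degree `0`, with values over `k` -/
def specDegZero : Divisor.degZero (K := Ω) (F := FΩ) →+ Divisor.degZero (K := k) (F := Fk) :=
  ((Finsupp.mapDomain.addMonoidHom (specPlace h D)).comp
    (Divisor.degZero (K := Ω) (F := FΩ)).subtype).codRestrict _ fun E => by
    rw [Divisor.mem_degZero]
    show Divisor.degree (Finsupp.mapDomain (specPlace h D) (E : Divisor Ω FΩ)) = 0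
    rw [degree_mapDomain_specPlace]
    exact E.2

@[simp] theorem coe_specDegZero (E : Divisor.degZero (K := Ω) (F := FΩ)) :
    (specDegZero h D E : Divisor k Fk) = Finsupp.mapDomain (specPlace h D) (E : Divisor Ω FΩ) :=
  rfl

/-- **`specPic0 [E] = [r_* E]`** -/
theorem specPic0_mk (E : Divisor.degZero (K := Ω) (F := FΩ)) :
    specPic0 h D (Pic0.mk E) = Pic0.mk (specDegZero h D E) := by
  show (Transport.pic0Equiv (resEquiv h) (RingEquiv.refl Fk) (resEquiv_comm h)).symm
    (redPic0Hom D (Pic0.mk E)) = _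
  rw [AddEquiv.symm_apply_eq, redPic0Hom_mk]
  show Pic0.mk (redDegZeroHom D E) = Pic0.mk
    (Transport.degZeroEquiv (resEquiv h) (RingEquiv.refl Fk) (resEquiv_comm h) (specDegZero h D E))
  congr 1
  apply Subtype.ext
  show Finsupp.mapDomain D.r (E : Divisor Ω FΩ) =
    Transport.divEquiv (resEquiv h) (RingEquiv.refl Fk) (resEquiv_comm h)
      (Finsupp.mapDomain (specPlace h D) (E : Divisor Ω FΩ))
  rw [mapDomain_specPlace, AddEquiv.apply_symm_apply]

/-- conservation over `k`: `r_* div f = div f̄` for `f ∈ O` with nonzero reduction -/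
theorem mapDomain_specPlace_divOf {f : FΩ} (hf : D.redF f ≠ 0) :
    Finsupp.mapDomain (specPlace h D) (divOf (K := Ω) f) = divOf (K := k) (D.redF f) := by
  rw [mapDomain_specPlace, D.mapDomain_divOf hf, AddEquiv.symm_apply_eq]
  ext Q
  rw [Transport.divEquiv_apply, divOf_apply', divOf_apply']
  exact (ord_resPlaceEquiv_symm h Q _).symm

end Const

end Fermat.Agent.S17lib.CCR
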