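/-
S17lib / CCR / Laurent  (helper4)   — Project G, block CCR, part 9

**The instance**: for fields `k ⊂ Ω` of characteristic `0` and ANY `F₀ ⊂ ℚ((q))`, the coefficientwise
map `ι : laurentBaseChange k F₀ → laurentBaseChange Ω F₀` is a constant field extension
(`constExt_laurent : ConstExt Ω (baseAlgHom F₀)`):
* (ld)  = ProgramR `coeffMap_linearIndependent`;
* (gen) = S29lib `laurentBaseChange_le_adjoin`.
The `k`-algebra structure on `laurentBaseChange Ω F₀` is `baseAlgebra` (through `Ω`).
-/
import Mathlib
import Fermat.Agent.S17lib.CCR.Genus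
import Fermat.Agent.S17lib.CCR.Pic
import Fermat.Agent.S29lib.D.DescentMem
import Fermat.Agent.ProgramR.BarField.LinDisjoint

set_option autoImplicit false
set_option linter.unusedSectionVars false
set_option linter.style.haveILetI false

noncomputable section

namespace Fermat.Agent.S17lib.CCR

open ModularCurve IntermediateField AlgebraicCurve Fermat.Agent.S18lib

variable {k Ω : Type*} [Field k] [Field Ω] [Algebra ℚ k] [Algebra ℚ Ω] [Algebra k Ω]
  (F₀ : IntermediateField ℚ (LaurentSeries ℚ))

variable (k Ω) in
/-- the `k`-algebra structure of `Ω · F₀` (through `Ω`) -/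
@[reducible] def baseAlgebra : Algebra k (laurentBaseChange Ω F₀) :=
  ((algebraMap Ω (laurentBaseChange Ω F₀)).comp (algebraMap k Ω)).toAlgebra

variable (k Ω) in
theorem baseTower :
    letI := baseAlgebra k Ω F₀
    IsScalarTower k Ω (laurentBaseChange Ω F₀) :=
  letI := baseAlgebra k Ω F₀
  IsScalarTower.of_algebraMap_eq fun _ => rfl

variable (k Ω) in
/-- the coefficientwise map `k · F₀ → Ω · F₀` -/
def baseRingHom : laurentBaseChange k F₀ →+* laurentBaseChange Ω F₀ :=
  ((coeffMap (algebraMap k Ω)).comp (laurentBaseChange k F₀).val.toRingHom).codRestrict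
    (laurentBaseChange Ω F₀) fun x =>
      Fermat.Agent.S29lib.D.coeffMap_mem_laurentBaseChange' (algebraMap k Ω) F₀ x.2

@[simp] theorem coe_baseRingHom (x : laurentBaseChange k F₀) :
    ((baseRingHom k Ω F₀ x : laurentBaseChange Ω F₀) : LaurentSeries Ω) =
      coeffMap (algebraMap k Ω) (x : LaurentSeries k) := rfl

variable (k Ω) in
/-- the coefficientwise map as a `k`-algebra homomorphism -/
def baseAlgHom :
    letI := baseAlgebra k Ω F₀
    laurentBaseChange k F₀ →ₐ[k] laurentBaseChange Ω F₀ :=
  letI := baseAlgebra k Ω F₀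
  { baseRingHom k Ω F₀ with
    commutes' := fun c => by
      apply Subtype.ext
      show coeffMap (algebraMap k Ω) (algebraMap k (LaurentSeries k) c) =
        algebraMap Ω (LaurentSeries Ω) (algebraMap k Ω c)
      exact Fermat.Agent.S29lib.D.coeffMap_algebraMap' (algebraMap k Ω) c }

theorem coe_baseAlgHom (x : laurentBaseChange k F₀) :
    letI := baseAlgebra k Ω F₀
    ((baseAlgHom k Ω F₀ x : laurentBaseChange Ω F₀) : LaurentSeries Ω) =
      coeffMap (algebraMap k Ω) (x : LaurentSeries k) := rfl

/-- **the coefficientwise map is a constant field extension** -/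
theorem constExt_laurent :
    letI := baseAlgebra k Ω F₀
    haveI := baseTower k Ω F₀
    ConstExt Ω (baseAlgHom k Ω F₀) := by
  letI := baseAlgebra k Ω F₀
  haveI := baseTower k Ω F₀
  refine ⟨fun s hs => ?_, ?_⟩
  · -- linear disjointness
    have h1 : @LinearIndependent s k (LaurentSeries k)
        (fun x : s => (((x : laurentBaseChange k F₀)) : LaurentSeries k)) _ _ Algebra.toModule :=
      @LinearIndependent.map' s k (laurentBaseChange k F₀) (LaurentSeries k) _ _ _ _ _
        Algebra.toModule hs (laurentBaseChange k F₀).val.toLinearMap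
        (by
          refine (Submodule.eq_bot_iff _).2 fun x hx => ?_
          have hx' : ((x : laurentBaseChange k F₀) : LaurentSeries k) = 0 := hx
          exact Subtype.ext hx')
    have h2 := Fermat.Agent.ProgramR.BarField.linearIndependent_coeffMap_alg (algebraMap k Ω) _ h1
    exact @LinearIndependent.of_comp s Ω (laurentBaseChange Ω F₀) (LaurentSeries Ω) _ _ _ _ _
      Algebra.toModule (laurentBaseChange Ω F₀).val.toLinearMap h2
  · -- generation
    rw [eq_top_iff]
    intro x _
    have hx := Fermat.Agent.S29lib.D.laurentBaseChange_le_adjoin (algebraMap k Ω) F₀ x.2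
    have himg : (coeffMap (algebraMap k Ω) '' (laurentBaseChange k F₀ : Set (LaurentSeries k))) =
        (laurentBaseChange Ω F₀).val '' Set.range (baseAlgHom k Ω F₀) := by
      ext z
      constructor
      · rintro ⟨y, hy, rfl⟩
        exact ⟨baseAlgHom k Ω F₀ ⟨y, hy⟩, ⟨⟨y, hy⟩, rfl⟩, rfl⟩
      · rintro ⟨_, ⟨y, rfl⟩, rfl⟩
        exact ⟨y, y.2, rfl⟩
    rw [himg, ← IntermediateField.adjoin_map] at hx
    obtain ⟨y, hy, hyx⟩ := hx
    have : y = x := Subtype.ext hyx
    rw [← this]
    exact hy

end Fermat.Agent.S17lib.CCR
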