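/-
S17lib / CCR / Modular  (helper4)   — Project G, block CCR, part 10

**The modular instance of (C1)+(C2)+(C3).**  `Qb = AlgebraicClosure ℚ`, `Ω ⊇ Qb` any algebraically
closed field, `A ⊂ Ω` a valuation ring over `Qb` with residue field `Qb`:
`FBar N = Qb · F₀(N)`, `FΩ N = Ω · F₀(N)` (Prelude `laurentBaseChange`), `ι = baseAlgHom`.
* `isCurveOfGenus_FΩ`  : `FΩ N / Ω` is a curve of the same genus as `FBar N / Qb`;
* `exists_redDatum_FΩ` : the reduction datum `RedDatum A (FΩ N) (FBar N)`;
* `exists_spec_FΩ`     : place map `r : Place Ω (FΩ N) → Place Qb (FBar N)` + specialisation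
  `Pic0 Ω (FΩ N) →+ JZero N` with `[E] ↦ [r_* E]`, conservation, `red ∘ ι = id`.
-/
import Mathlib
import Fermat.Agent.S17lib.CCR.Laurent
import Fermat.Agent.S18lib.Gin0.Genus

set_option autoImplicit false
set_option linter.unusedSectionVars false
set_option linter.style.haveILetI false

noncomputable section

namespace Fermat.Agent.S17lib.CCR

open ModularCurve IntermediateField AlgebraicCurve Fermat.Agent.S18lib

local notation "Qb" => AlgebraicClosure ℚ

variable (Ω : Type*) [Field Ω] [Algebra ℚ Ω] [Algebra Qb Ω] [IsAlgClosed Ω] (N : ℕ) [NeZero N]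

/-- the function field of `X₀(N)` over `Ω` -/
abbrev FΩ : Type _ := ↥(laurentBaseChange Ω (modularFunctionFieldFull N))

/-- `Qb`-algebra structure of `FΩ N` -/
@[reducible] def algFΩ : Algebra Qb (FΩ Ω N) := baseAlgebra Qb Ω (modularFunctionFieldFull N)

theorem towerFΩ :
    letI := algFΩ Ω N
    IsScalarTower Qb Ω (FΩ Ω N) := baseTower Qb Ω (modularFunctionFieldFull N)

/-- the base change map `FBar N → FΩ N` -/
def iotaΩ :
    letI := algFΩ Ω N
    S18lib.FBar N →ₐ[Qb] FΩ Ω N := baseAlgHom Qb Ω (modularFunctionFieldFull N)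

theorem constExt_FΩ :
    letI := algFΩ Ω N
    haveI := towerFΩ Ω N
    ConstExt Ω (iotaΩ Ω N) := constExt_laurent (k := Qb) (Ω := Ω) (modularFunctionFieldFull N)

variable {Ω}
variable (A : ValuationSubring Ω) [Algebra Qb A] [IsScalarTower Qb A Ω]
  [Algebra (IsLocalRing.ResidueField A) (S18lib.FBar N)]
  [IsScalarTower Qb (IsLocalRing.ResidueField A) (S18lib.FBar N)]
  (hres : Function.Surjective (algebraMap Qb (IsLocalRing.ResidueField A)))

include hres in
/-- **(C1), modular**: same genus over `Ω` -/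
theorem isCurveOfGenus_FΩ {g : ℕ} (hg : IsCurveOfGenus Qb (S18lib.FBar N) g) :
    IsCurveOfGenus Ω (FΩ Ω N) g := by
  letI := algFΩ Ω N
  haveI := towerFΩ Ω N
  exact (constExt_FΩ Ω N).isCurveOfGenus A hres hg (Gin0.transcendental_jF N)

/-- **(C2), modular**: the reduction datum -/
theorem exists_redDatum_FΩ {g : ℕ} (hg : IsCurveOfGenus Qb (S18lib.FBar N) g) :
    letI := algFΩ Ω N
    haveI := towerFΩ Ω N
    ∃ D : RedDatum A (FΩ Ω N) (S18lib.FBar N),
      D.toGaussDatum = gaussDatum ((constExt_FΩ Ω N).constData A hres) := by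
  letI := algFΩ Ω N
  haveI := towerFΩ Ω N
  exact ((constExt_FΩ Ω N).exists_redDatum' A hres hg (Gin0.transcendental_jF N)).2

end Fermat.Agent.S17lib.CCR
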