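/-
S17lib / CCR / Api  (helper4)   — Project G, block CCR, part 11

Consumer lemmas for a reduction datum `D` extending the Gauss datum of the constant-curve
reduction (`hD : D.toGaussDatum = gaussDatum h`):  `ι f ∈ D.O`, `D.redF (ι f) = f`, constants,
conservation for `ι f` (`r_* div (ι f) = div f`), no cancellation (`r_* (ι f)_∞ = (f)_∞`).
-/
import Mathlib
import Fermat.Agent.S17lib.CCR.Pic
import Fermat.Agent.S17lib.CCR.Main
import Fermat.Agent.S18lib.Setup.DatumFibre

set_option autoImplicit false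
set_option linter.unusedSectionVars false
set_option linter.style.haveILetI false

noncomputable section

namespace Fermat.Agent.S17lib.CCR

open AlgebraicCurve IntermediateField Fermat.Agent.S18lib

variable {k Ω Fk FΩ : Type*} [Field k] [Field Ω] [Field Fk] [Field FΩ]
  [Algebra k Ω] [Algebra k Fk] [Algebra Ω FΩ] [Algebra k FΩ] [IsScalarTower k Ω FΩ]

variable {A : ValuationSubring Ω} [Algebra k A] [IsScalarTower k A Ω]
  [Algebra (IsLocalRing.ResidueField A) Fk] [IsScalarTower k (IsLocalRing.ResidueField A) Fk]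
  {ι : Fk →ₐ[k] FΩ}

variable {h : ConstData A ι} {D : RedDatum A FΩ Fk} (hD : D.toGaussDatum = gaussDatum h)

include hD

theorem O_eq_gaussRing : D.O = gaussRing A ι h := by
  rw [← RedDatum.toGaussDatum_O, hD]
  rfl

theorem redF_eq_gauss (x : FΩ) : D.redF x = (gaussDatum h).redF x := by
  rw [← RedDatum.toGaussDatum_redF, hD]

/-- `ι Fk ⊂ O` -/
theorem iota_mem_O (f : Fk) : ι f ∈ D.O := by
  rw [O_eq_gaussRing hD]
  exact iota_mem_gaussRing h f

/-- `red ∘ ι = id` -/
theorem redF_iota (f : Fk) : D.redF (ι f) = f := by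
  rw [redF_eq_gauss hD, gaussDatum_redF_iota]

/-- conservation for functions coming from `Fk`: `r_* div (ι f) = div f` -/
theorem mapDomain_divOf_iota [HasPrincipalDivisors Ω FΩ]
    [HasPrincipalDivisors (IsLocalRing.ResidueField A) Fk] {f : Fk} (hf : f ≠ 0) :
    Finsupp.mapDomain D.r (divOf (K := Ω) (ι f)) =
      divOf (K := IsLocalRing.ResidueField A) f := by
  have h1 : D.redF (ι f) ≠ 0 := by rw [redF_iota hD]; exact hf
  rw [D.mapDomain_divOf h1, redF_iota hD]

theorem mapDomain_specPlace_divOf_iota [HasPrincipalDivisors Ω FΩ] [HasPrincipalDivisors k Fk]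
    [HasPrincipalDivisors (IsLocalRing.ResidueField A) Fk] {f : Fk} (hf : f ≠ 0) :
    Finsupp.mapDomain (specPlace h D) (divOf (K := Ω) (ι f)) = divOf (K := k) f := by
  have h1 : D.redF (ι f) ≠ 0 := by rw [redF_iota hD]; exact hf
  rw [mapDomain_specPlace_divOf h D h1, redF_iota hD]

end Fermat.Agent.S17lib.CCR
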