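/-
S17lib / CCR / Places  (helper4)   — Project G, block CCR, part 12

**The `Ω`-point of the constant curve attached to an embedding `emb : Fk →ₐ[k] Ω`** (for
`Fk = k(C) ⊂ Ω` the TAUTOLOGICAL point `η`): a place `η` of `FΩ / Ω` with
`(ι f)(η) = emb f` for all `f ∈ Fk`  (`exists_place_of_emb`).

Construction: `Ω ⊗[k] Fk ≅ Ω · ι Fk ⊂ FΩ` (linear disjointness), evaluation `c ⊗ f ↦ c · emb f`,
Chevalley (`Ideal.image_subset_nonunits_valuationSubring`) gives a valuation subring `V ⊇ Ω` of `FΩ`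
whose maximal ideal contains all `ι f - emb f`; `V ≠ ⊤`, and a valuation subring `≠ ⊤` over `Ω` of
the function field `FΩ` is a place: this last fact is the explicit hypothesis `hB2` (brick (B2)).
-/
import Mathlib
import Fermat.Agent.S17lib.CCR.Api
import Fermat.Agent.ProgramR.FunctionField.PlaceDedekind
import Fermat.Agent.ProgramR.RHLocal.Global

set_option autoImplicit false
set_option linter.unusedSectionVars false
set_option linter.style.haveILetI false

noncomputable section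

namespace Fermat.Agent.S17lib.CCR

open TensorProduct Module AlgebraicCurve Fermat.Agent.ProgramR

variable {k Ω Fk FΩ : Type*} [Field k] [Field Ω] [Field Fk] [Field FΩ]
  [Algebra k Ω] [Algebra k Fk] [Algebra Ω FΩ] [Algebra k FΩ] [IsScalarTower k Ω FΩ]

variable (Ω) in
/-- `c ⊗ f ↦ c · ι f` -/
def muBig (ι : Fk →ₐ[k] FΩ) : Ω ⊗[k] Fk →ₐ[Ω] FΩ :=
  Algebra.TensorProduct.productLeftAlgHom (Algebra.ofId Ω FΩ) ι

/-- `c ⊗ f ↦ c · emb f` -/
def evBig (emb : Fk →ₐ[k] Ω) : Ω ⊗[k] Fk →ₐ[Ω] Ω :=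
  Algebra.TensorProduct.productLeftAlgHom (AlgHom.id Ω Ω) emb

variable {ι : Fk →ₐ[k] FΩ}

@[simp] theorem muBig_tmul (c : Ω) (f : Fk) :
    muBig Ω ι (c ⊗ₜ[k] f) = algebraMap Ω FΩ c * ι f := by
  simp [muBig, Algebra.ofId_apply]

@[simp] theorem evBig_tmul (emb : Fk →ₐ[k] Ω) (c : Ω) (f : Fk) :
    evBig emb (c ⊗ₜ[k] f) = c * emb f := by
  simp [evBig]

/-- **`muBig` is injective** (linear disjointness) -/
theorem muBig_injective (h : ConstExt Ω ι) : Function.Injective (muBig Ω ι) := by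
  rw [injective_iff_map_eq_zero]
  intro t ht
  set b := Algebra.TensorProduct.basis Ω (Basis.ofVectorSpace k Fk) with hb
  have hbi : ∀ i, muBig Ω ι (b i) = ι (i : Fk) := by
    intro i
    rw [hb, Algebra.TensorProduct.basis_apply, muBig_tmul, map_one, one_mul,
      Basis.ofVectorSpace_apply_self]
  have h1 : muBig Ω ι t = Finsupp.linearCombination Ω (fun i : Basis.ofVectorSpaceIndex k Fk =>
      ι (i : Fk)) (b.repr t) := by
    conv_lhs => rw [← b.linearCombination_repr t]
    rw [Finsupp.linearCombination_apply, Finsupp.linearCombination_apply, Finsupp.sum, map_sum,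
      Finsupp.sum]
    refine Finset.sum_congr rfl fun i _ => ?_
    rw [map_smul, hbi]
  have hind : LinearIndependent Ω (fun i : Basis.ofVectorSpaceIndex k Fk => ι (i : Fk)) :=
    h.ld _ (Basis.ofVectorSpaceIndex.linearIndependent k Fk)
  have h2 := linearIndependent_iff.1 hind (b.repr t) (by rw [← h1, ht])
  exact (LinearEquiv.map_eq_zero_iff _).1 h2


/-- **Chevalley**: a valuation subring of `FΩ` over `Ω` whose maximal ideal contains all
`ι f - emb f`. -/
theorem exists_valuationSubring_of_emb (h : ConstExt Ω ι) (emb : Fk →ₐ[k] Ω) :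
    ∃ V : ValuationSubring FΩ, (∀ c : Ω, algebraMap Ω FΩ c ∈ V) ∧
      ∀ f : Fk, ι f - algebraMap Ω FΩ (emb f) ∈ V.nonunits := by
  have hinj := muBig_injective h
  let e : (Ω ⊗[k] Fk) ≃+* (muBig Ω ι).toRingHom.range :=
    RingEquiv.ofBijective (muBig Ω ι).toRingHom.rangeRestrict
      ⟨fun a b hab => hinj (congrArg Subtype.val hab),
        (muBig Ω ι).toRingHom.rangeRestrict_surjective⟩
  let evR : (muBig Ω ι).toRingHom.range →+* Ω := (evBig emb).toRingHom.comp e.symm.toRingHom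
  have hI : RingHom.ker evR ≠ ⊤ := RingHom.ker_ne_top evR
  obtain ⟨V, hRV, hIV⟩ := Ideal.image_subset_nonunits_valuationSubring (RingHom.ker evR) hI
  refine ⟨V, fun c => hRV ⟨c ⊗ₜ[k] (1 : Fk), ?_⟩, fun f => ?_⟩
  · show muBig Ω ι (c ⊗ₜ[k] (1 : Fk)) = _
    rw [muBig_tmul, map_one, mul_one]
  have hx : muBig Ω ι ((1 : Ω) ⊗ₜ[k] f - emb f ⊗ₜ[k] (1 : Fk)) =
      ι f - algebraMap Ω FΩ (emb f) := by
    rw [map_sub, muBig_tmul, muBig_tmul, map_one, one_mul, map_one, mul_one]
  have hxR : ι f - algebraMap Ω FΩ (emb f) ∈ (muBig Ω ι).toRingHom.range := ⟨_, hx⟩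
  apply hIV
  refine ⟨⟨_, hxR⟩, ?_, rfl⟩
  have he : e.symm ⟨_, hxR⟩ = (1 : Ω) ⊗ₜ[k] f - emb f ⊗ₜ[k] (1 : Fk) := by
    rw [RingEquiv.symm_apply_eq]
    apply Subtype.ext
    exact hx.symm
  show evR ⟨_, hxR⟩ = 0
  show evBig emb (e.symm ⟨_, hxR⟩) = 0
  rw [he, map_sub, evBig_tmul, evBig_tmul, map_one, one_mul, mul_one, sub_self]

/-- membership in the maximal ideal of a place in terms of `ord` -/
theorem place_nonunits_iff {K F : Type*} [Field K] [Field F] [Algebra K F] (P : Place K F)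
    (x : F) : x ∈ P.toValuationSubring.nonunits ↔ x = 0 ∨ 0 < P.ord x := by
  rw [ValuationSubring.mem_nonunits_iff_or, FF.mem_iff_ord_nonneg, P.ord_inv]
  constructor
  · rintro (h | h)
    · exact Or.inl h
    · right; omega
  · rintro (h | h)
    · exact Or.inl h
    · right; omega

/-- **the `Ω`-point attached to an embedding** (the tautological point for `Fk ⊂ Ω`).  `hB2` is
brick (B2): a valuation subring `≠ ⊤` of `FΩ` over `Ω` is a place. -/
theorem exists_place_of_emb (h : ConstExt Ω ι)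
    (hB2 : ∀ V : ValuationSubring FΩ, (∀ c : Ω, algebraMap Ω FΩ c ∈ V) → V ≠ ⊤ →
      ∃ P : Place Ω FΩ, P.toValuationSubring = V)
    {y₀ : Fk} (hy₀ : Transcendental k y₀) (emb : Fk →ₐ[k] Ω) :
    ∃ η : Place Ω FΩ, ∀ f : Fk,
      ι f = algebraMap Ω FΩ (emb f) ∨ 0 < η.ord (ι f - algebraMap Ω FΩ (emb f)) := by
  obtain ⟨V, hVΩ, hV⟩ := exists_valuationSubring_of_emb h emb
  have hne : V ≠ ⊤ := by
    intro htop
    have h1 := hV y₀
    rw [htop, ValuationSubring.mem_nonunits_iff_or] at h1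
    rcases h1 with h1 | h1
    · have htr := h.transcendental_iota hy₀
      apply htr
      rw [sub_eq_zero.1 h1]
      exact isAlgebraic_algebraMap _
    · exact h1 (ValuationSubring.mem_top _)
  obtain ⟨η, hη⟩ := hB2 V hVΩ hne
  refine ⟨η, fun f => ?_⟩
  have h1 := hV f
  rw [← hη, place_nonunits_iff] at h1
  rcases h1 with h1 | h1
  · exact Or.inl (sub_eq_zero.1 h1)
  · exact Or.inr h1

/-! ### The specialisation of an `Ω`-point is the place cut out by `A` -/

section Spec

open Fermat.Agent.S18lib IntermediateField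

variable {A : ValuationSubring Ω} [Algebra k A] [IsScalarTower k A Ω]
  [Algebra (IsLocalRing.ResidueField A) Fk] [IsScalarTower k (IsLocalRing.ResidueField A) Fk]

local notation "kA" => IsLocalRing.ResidueField A

/-- an element of `Fk` algebraic over the algebraically closed `k` is a constant -/
theorem exists_const_of_isAlgebraic [IsAlgClosed k] {f : Fk} (hf : IsAlgebraic k f) :
    ∃ c : k, f = algebraMap k Fk c := by
  have h1 : (minpoly k f).degree = 1 :=
    IsAlgClosed.degree_eq_one_of_irreducible k (minpoly.irreducible hf.isIntegral)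
  obtain ⟨c, hc⟩ := minpoly.mem_range_of_degree_eq_one k f h1
  exact ⟨c, hc.symm⟩

/-- no cancellation for `ι f`, in the shape consumed by `RedDatum.ord_r_pos_of_ord_pos` -/
theorem degree_polesOf_iota_redF [CharZero k] [IsAlgClosed k] [IsAlgClosed Ω]
    [HasPrincipalDivisors Ω FΩ] [HasPrincipalDivisors k Fk] [HasPrincipalDivisors kA Fk]
    (hc : ConstExt Ω ι) {h : ConstData A ι} {D : RedDatum A FΩ Fk}
    (hD : D.toGaussDatum = gaussDatum h) {f : Fk} (hf : Transcendental k f)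
    [FiniteDimensional k⟮f⟯ Fk] :
    Divisor.degree (polesOf (K := Ω) (ι f)) =
      Divisor.degree (polesOf (K := kA) (D.redF (ι f))) := by
  rw [redF_iota hD, degree_polesOf_res h, hc.degree_polesOf_iota hf]

/-- `ι f` is not a constant modulo `A` when `f` is not a constant -/
theorem redF_iota_ne_const {h : ConstData A ι} {D : RedDatum A FΩ Fk}
    (hD : D.toGaussDatum = gaussDatum h) {f : Fk} (hf : Transcendental k f) (c : kA) :
    D.redF (ι f) ≠ algebraMap kA Fk c := by
  rw [redF_iota hD]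
  intro hfc
  obtain ⟨c', rfl⟩ := h.res_surj c
  rw [← IsScalarTower.algebraMap_apply k kA Fk] at hfc
  exact hf (hfc ▸ isAlgebraic_algebraMap c')

/-- **a zero of `ι f - a` (`a ∈ A`) reduces to a zero of `f - ā`** -/
theorem ord_r_pos_of_ord_iota_sub_pos [CharZero k] [IsAlgClosed k] [IsAlgClosed Ω]
    [HasPrincipalDivisors Ω FΩ] [HasPrincipalDivisors k Fk] [HasPrincipalDivisors kA Fk]
    (hc : ConstExt Ω ι) {h : ConstData A ι} {D : RedDatum A FΩ Fk}
    (hD : D.toGaussDatum = gaussDatum h) (hdegpos : ∀ Q : Place kA Fk, 0 < Q.deg)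
    {f : Fk} (hf : Transcendental k f) [FiniteDimensional k⟮f⟯ Fk] (a : A) {P : Place Ω FΩ}
    (hP : 0 < P.ord (ι f - algebraMap Ω FΩ (a : Ω))) :
    0 < (D.r P).ord (f - algebraMap kA Fk (IsLocalRing.residue A a)) := by
  have := D.ord_r_pos_of_ord_pos hdegpos (iota_mem_O hD f) (redF_iota_ne_const hD hf)
    (degree_polesOf_iota_redF hc hD hf) a hP
  rwa [redF_iota hD] at this

/-- **the valuation ring of `r_A(η)`**: if the place `η` of `FΩ` takes the value `emb f` at `ι f`
for every `f` (`HasValueAt η (ι f) (emb f)`), then `f ∈ 𝒪_{r η} ↔ emb f ∈ A`.  (`y₀` is any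
separating element of `Fk`; it only serves to know that `Fk` is a function field.) -/
theorem mem_specPlace_iff_of_emb [CharZero k] [IsAlgClosed k] [IsAlgClosed Ω]
    [HasPrincipalDivisors Ω FΩ] [HasPrincipalDivisors k Fk] [HasPrincipalDivisors kA Fk]
    (hc : ConstExt Ω ι) {h : ConstData A ι} {D : RedDatum A FΩ Fk}
    (hD : D.toGaussDatum = gaussDatum h) (hdegpos : ∀ Q : Place kA Fk, 0 < Q.deg)
    (y₀ : Fk) [FiniteDimensional k⟮y₀⟯ Fk]
    (emb : Fk →ₐ[k] Ω) (η : Place Ω FΩ)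
    (hη : ∀ f : Fk, ι f = algebraMap Ω FΩ (emb f) ∨ 0 < η.ord (ι f - algebraMap Ω FΩ (emb f)))
    (f : Fk) : f ∈ (specPlace h D η).toValuationSubring ↔ emb f ∈ A := by
  -- the key step: a non-constant `f` with `emb f ∈ A` is regular at `r η`, with value `emb f` mod `𝔪`
  have key : ∀ f : Fk, Transcendental k f → ∀ ha : emb f ∈ A,
      0 < (D.r η).ord (f - algebraMap kA Fk (IsLocalRing.residue A ⟨emb f, ha⟩)) := by
    intro f hf ha
    haveI : FiniteDimensional k⟮f⟯ Fk :=
      RHLocal.finiteDimensional_adjoin_of_transcendental (x := y₀) hf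
    refine ord_r_pos_of_ord_iota_sub_pos hc hD hdegpos hf ⟨emb f, ha⟩ ?_
    rcases hη f with h1 | h1
    · exact absurd (h1 ▸ isAlgebraic_algebraMap (emb f)) (hc.transcendental_iota hf)
    · exact h1
  rw [FF.mem_iff_ord_nonneg, ord_specPlace]
  by_cases hfalg : IsAlgebraic k f
  · obtain ⟨c, rfl⟩ := exists_const_of_isAlgebraic hfalg
    refine iff_of_true ?_ ?_
    · rw [IsScalarTower.algebraMap_apply k kA Fk]
      exact FF.ord_nonneg_of_mem _ ((D.r η).algebraMap_mem' _)
    · rw [AlgHom.commutes, IsScalarTower.algebraMap_apply k A Ω]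
      exact (algebraMap k A c).2
  have hf : Transcendental k f := hfalg
  constructor
  · intro hord
    by_contra hnA
    have hf0 : f ≠ 0 := fun h0 => hnA (by rw [h0, map_zero]; exact A.zero_mem)
    have hinvA : emb f⁻¹ ∈ A := by
      rw [map_inv₀]
      exact (A.mem_or_inv_mem (emb f)).resolve_left hnA
    have hfinv : Transcendental k f⁻¹ := fun halg => hf (by simpa using halg.inv)
    have h1 := key f⁻¹ hfinv hinvA
    have hres : IsLocalRing.residue A ⟨emb f⁻¹, hinvA⟩ = 0 := by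
      rw [IsLocalRing.residue_eq_zero_iff, IsLocalRing.mem_maximalIdeal, mem_nonunits_iff]
      intro hu
      obtain ⟨b, hb⟩ := isUnit_iff_exists_inv.1 hu
      have hb' : emb f⁻¹ * (b : Ω) = 1 := by
        have := congrArg Subtype.val hb
        simpa using this
      apply hnA
      have hbe : (b : Ω) = emb f := by
        rw [map_inv₀] at hb'
        have he0 : emb f ≠ 0 := (map_ne_zero _).2 hf0
        field_simp at hb'
        exact hb'
      rw [← hbe]
      exact b.2
    rw [hres, map_zero, sub_zero, Place.ord_inv] at h1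
    omega
  · intro ha
    have h1 := key f hf ha
    have h2 : f - algebraMap kA Fk (IsLocalRing.residue A ⟨emb f, ha⟩) ∈
        (D.r η).toValuationSubring := FF.mem_of_ord_nonneg _ h1.le
    have h3 := add_mem h2 ((D.r η).algebraMap_mem' (IsLocalRing.residue A ⟨emb f, ha⟩))
    rw [sub_add_cancel] at h3
    exact FF.ord_nonneg_of_mem _ h3

/-- **`r_A(η) = p`**: if moreover `p` is the place of `Fk` cut out by `A` along `emb`
(`f ∈ 𝒪_p ↔ emb f ∈ A`), then `η` specialises to `p`. -/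
theorem specPlace_eq_of_emb [CharZero k] [IsAlgClosed k] [IsAlgClosed Ω]
    [HasPrincipalDivisors Ω FΩ] [HasPrincipalDivisors k Fk] [HasPrincipalDivisors kA Fk]
    (hc : ConstExt Ω ι) {h : ConstData A ι} {D : RedDatum A FΩ Fk}
    (hD : D.toGaussDatum = gaussDatum h) (hdegpos : ∀ Q : Place kA Fk, 0 < Q.deg)
    (y₀ : Fk) [FiniteDimensional k⟮y₀⟯ Fk]
    (emb : Fk →ₐ[k] Ω) (η : Place Ω FΩ)
    (hη : ∀ f : Fk, ι f = algebraMap Ω FΩ (emb f) ∨ 0 < η.ord (ι f - algebraMap Ω FΩ (emb f)))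
    (p : Place k Fk) (hp : ∀ f : Fk, f ∈ p.toValuationSubring ↔ emb f ∈ A) :
    specPlace h D η = p := by
  apply Place.ext
  ext f
  rw [mem_specPlace_iff_of_emb hc hD hdegpos y₀ emb η hη f, hp f]

/-- the same through an intermediate field `L` (`k ⊂ L ⊂ Ω`), a point `σ : Fk →ₐ[k] L` and a place
`x` of `L` with `A ∩ L = 𝒪_x`: **`x` lies over `r_A(η)` along `σ`**
(`f ∈ 𝒪_{r η} ↔ σ f ∈ 𝒪_x`, the `LiesOver σ x (r η)` of `S17lib/Glue`). -/
theorem liesOver_specPlace [CharZero k] [IsAlgClosed k] [IsAlgClosed Ω]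
    [HasPrincipalDivisors Ω FΩ] [HasPrincipalDivisors k Fk] [HasPrincipalDivisors kA Fk]
    (hc : ConstExt Ω ι) {h : ConstData A ι} {D : RedDatum A FΩ Fk}
    (hD : D.toGaussDatum = gaussDatum h) (hdegpos : ∀ Q : Place kA Fk, 0 < Q.deg)
    (y₀ : Fk) [FiniteDimensional k⟮y₀⟯ Fk]
    {L : Type*} [Field L] [Algebra k L] [Algebra L Ω] [IsScalarTower k L Ω]
    (σ : Fk →ₐ[k] L) (x : Place k L)
    (hx : ∀ l : L, algebraMap L Ω l ∈ A ↔ l ∈ x.toValuationSubring)
    (η : Place Ω FΩ)
    (hη : ∀ f : Fk, ι f = algebraMap Ω FΩ (algebraMap L Ω (σ f)) ∨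
      0 < η.ord (ι f - algebraMap Ω FΩ (algebraMap L Ω (σ f))))
    (f : Fk) : f ∈ (specPlace h D η).toValuationSubring ↔ σ f ∈ x.toValuationSubring := by
  rw [← hx]
  exact mem_specPlace_iff_of_emb hc hD hdegpos y₀ ((IsScalarTower.toAlgHom k L Ω).comp σ) η hη f

end Spec

end Fermat.Agent.S17lib.CCR
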