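/-
S17lib / CCR / Taut  (helper4)   — Project G, block CCR, part 13

Brick (B2) (`ValExt.exists_place_of_valuationSubring`, helper3) discharged:

* `exists_place_of_emb'` : for a constant field extension `ι : Fk → FΩ` and EVERY `emb : Fk →ₐ[k] Ω`
  there is a place `η` of `FΩ / Ω` with `(ι f)(η) = emb f` for all `f` (the `Ω`-point `emb` of the
  curve; for `Fk ⊂ Ω` the tautological point);
* `ord_iota_eq_zero_of_emb` : such a place is not a constant place (`ord_η (ι f) = 0` for `f ≠ 0`);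
* modular instance `exists_place_FΩ_of_emb`, and the specialisation statements
  `mem_specPlace_iff_FΩ`, `liesOver_specPlace_FΩ` for `FΩ Ω N / FBar N`.
-/
import Mathlib
import Fermat.Agent.S17lib.CCR.Places
import Fermat.Agent.S17lib.CCR.Modular
import Fermat.Agent.S17lib.ValExt.PlaceOfVal
import Fermat.Agent.S18lib.Cech.CurveBasics

set_option autoImplicit false
set_option linter.unusedSectionVars false
set_option linter.style.haveILetI false

noncomputable section

namespace Fermat.Agent.S17lib.CCR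

open AlgebraicCurve IntermediateField Fermat.Agent.ProgramR Fermat.Agent.S18lib

section Generic

variable {k Ω Fk FΩ : Type*} [Field k] [Field Ω] [Field Fk] [Field FΩ]
  [Algebra k Ω] [Algebra k Fk] [Algebra Ω FΩ] [Algebra k FΩ] [IsScalarTower k Ω FΩ]
  {ι : Fk →ₐ[k] FΩ}

/-- **the `Ω`-point attached to an embedding `emb : Fk →ₐ[k] Ω`**, brick (B2) discharged -/
theorem exists_place_of_emb' [CharZero Ω] (h : ConstExt Ω ι) {y₀ : Fk}
    (hy₀ : Transcendental k y₀) [FiniteDimensional k⟮y₀⟯ Fk] (emb : Fk →ₐ[k] Ω) :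
    ∃ η : Place Ω FΩ, ∀ f : Fk,
      ι f = algebraMap Ω FΩ (emb f) ∨ 0 < η.ord (ι f - algebraMap Ω FΩ (emb f)) := by
  haveI := h.finiteDimensional y₀
  exact exists_place_of_emb h
    (fun V hK hV => ValExt.exists_place_of_valuationSubring Ω (h.transcendental_iota hy₀) V hK hV)
    hy₀ emb

/-- an `Ω`-point which is an embedding has `ord (ι f) = 0` for every `f ≠ 0`: it is not a constant
place -/
theorem ord_iota_eq_zero_of_emb (emb : Fk →ₐ[k] Ω) (η : Place Ω FΩ)
    (hη : ∀ f : Fk, ι f = algebraMap Ω FΩ (emb f) ∨ 0 < η.ord (ι f - algebraMap Ω FΩ (emb f)))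
    {f : Fk} (hf : f ≠ 0) : η.ord (ι f) = 0 := by
  have he : emb f ≠ 0 := (map_ne_zero _).2 hf
  have hc : η.ord (algebraMap Ω FΩ (emb f)) = 0 := S18lib.Cech.ord_const η (emb f)
  have hc0 : algebraMap Ω FΩ (emb f) ≠ 0 := (map_ne_zero _).2 he
  have hif : ι f ≠ 0 := (map_ne_zero _).2 hf
  rcases hη f with h1 | h1
  · rw [h1, hc]
  · -- `ι f = (ι f - c) + c` with `ord (ι f - c) > 0 = ord c`
    have h2 := S18lib.Cech.ord_add_ge η (n := 0) (f := ι f - algebraMap Ω FΩ (emb f))
      (g := algebraMap Ω FΩ (emb f)) (Or.inr h1.le) (Or.inr hc.ge)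
    rw [sub_add_cancel] at h2
    have hle : 0 ≤ η.ord (ι f) := h2.resolve_left hif
    by_contra hne0
    have hpos : 1 ≤ η.ord (ι f) := by omega
    -- then `c = ι f - (ι f - c)` would have positive order
    have h3 := S18lib.Cech.ord_add_ge η (n := 1) (f := ι f)
      (g := -(ι f - algebraMap Ω FΩ (emb f))) (Or.inr hpos)
      (Or.inr (by rw [S18lib.Cech.ord_neg]; omega))
    rw [← sub_eq_add_neg, sub_sub_cancel] at h3
    have := h3.resolve_left hc0
    omega

end Generic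

section Modular

open ModularCurve

local notation "Qb" => AlgebraicClosure ℚ

variable {Ω : Type*} [Field Ω] [Algebra ℚ Ω] [Algebra Qb Ω] [IsAlgClosed Ω] (N : ℕ) [NeZero N]

/-- **the `Ω`-point of `X₀(N)` attached to an embedding of its function field into `Ω`** -/
theorem exists_place_FΩ_of_emb (emb : S18lib.FBar N →ₐ[Qb] Ω) :
    letI := algFΩ Ω N
    haveI := towerFΩ Ω N
    ∃ η : Place Ω (FΩ Ω N), ∀ f : S18lib.FBar N,
      iotaΩ Ω N f = algebraMap Ω (FΩ Ω N) (emb f) ∨
        0 < η.ord (iotaΩ Ω N f - algebraMap Ω (FΩ Ω N) (emb f)) := by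
  letI := algFΩ Ω N
  haveI := towerFΩ Ω N
  haveI : CharZero Ω := charZero_of_injective_algebraMap (algebraMap ℚ Ω).injective
  exact exists_place_of_emb' (constExt_FΩ Ω N) (Gin0.transcendental_jF N) emb

variable (A : ValuationSubring Ω) [Algebra Qb A] [IsScalarTower Qb A Ω]
  [Algebra (IsLocalRing.ResidueField A) (S18lib.FBar N)]
  [IsScalarTower Qb (IsLocalRing.ResidueField A) (S18lib.FBar N)]
  (hres : Function.Surjective (algebraMap Qb (IsLocalRing.ResidueField A)))

/-- **modular specialisation of an `Ω`-point**: `f ∈ 𝒪_{r_A η} ↔ emb f ∈ A` -/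
theorem mem_specPlace_iff_FΩ {g : ℕ} (hg : IsCurveOfGenus Qb (S18lib.FBar N) g)
    (D : letI := algFΩ Ω N; RedDatum A (FΩ Ω N) (S18lib.FBar N))
    (hD : letI := algFΩ Ω N; haveI := towerFΩ Ω N
      D.toGaussDatum = gaussDatum ((constExt_FΩ Ω N).constData A hres))
    (emb : S18lib.FBar N →ₐ[Qb] Ω)
    (η : letI := algFΩ Ω N; Place Ω (FΩ Ω N))
    (hη : letI := algFΩ Ω N; ∀ f : S18lib.FBar N,
      iotaΩ Ω N f = algebraMap Ω (FΩ Ω N) (emb f) ∨
        0 < η.ord (iotaΩ Ω N f - algebraMap Ω (FΩ Ω N) (emb f)))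
    (f : S18lib.FBar N) :
    letI := algFΩ Ω N
    haveI := towerFΩ Ω N
    f ∈ (specPlace ((constExt_FΩ Ω N).constData A hres) D η).toValuationSubring ↔ emb f ∈ A := by
  letI := algFΩ Ω N
  haveI := towerFΩ Ω N
  have hF := isCurveOfGenus_FΩ N A hres hg
  have hk := isCurveOfGenus_res ((constExt_FΩ Ω N).constData A hres) hg
  haveI := hF.hasPrincipalDivisors
  haveI := hg.hasPrincipalDivisors
  haveI := hk.hasPrincipalDivisors
  exact mem_specPlace_iff_of_emb (constExt_FΩ Ω N) hD (fun Q => by rw [hk.deg_eq_one Q]; exact one_pos)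
    (Gin0.jF N) emb η hη f

/-- **`LiesOver σ x (r_A η)`** for an `L`-rational point `σ : FBar N →ₐ[Qb] L` (`Qb ⊂ L ⊂ Ω`), a place
`x` of `L` with `A ∩ L = 𝒪_x`, and the place `η` of `FΩ N` attached to `σ`. -/
theorem liesOver_specPlace_FΩ {g : ℕ} (hg : IsCurveOfGenus Qb (S18lib.FBar N) g)
    (D : letI := algFΩ Ω N; RedDatum A (FΩ Ω N) (S18lib.FBar N))
    (hD : letI := algFΩ Ω N; haveI := towerFΩ Ω N
      D.toGaussDatum = gaussDatum ((constExt_FΩ Ω N).constData A hres))
    {L : Type*} [Field L] [Algebra Qb L] [Algebra L Ω] [IsScalarTower Qb L Ω]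
    (σ : S18lib.FBar N →ₐ[Qb] L) (x : Place Qb L)
    (hx : ∀ l : L, algebraMap L Ω l ∈ A ↔ l ∈ x.toValuationSubring)
    (η : letI := algFΩ Ω N; Place Ω (FΩ Ω N))
    (hη : letI := algFΩ Ω N; ∀ f : S18lib.FBar N,
      iotaΩ Ω N f = algebraMap Ω (FΩ Ω N) (algebraMap L Ω (σ f)) ∨
        0 < η.ord (iotaΩ Ω N f - algebraMap Ω (FΩ Ω N) (algebraMap L Ω (σ f))))
    (f : S18lib.FBar N) :
    letI := algFΩ Ω N
    haveI := towerFΩ Ω N
    f ∈ (specPlace ((constExt_FΩ Ω N).constData A hres) D η).toValuationSubring ↔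
      σ f ∈ x.toValuationSubring := by
  rw [← hx]
  exact mem_specPlace_iff_FΩ N A hres hg D hD ((IsScalarTower.toAlgHom Qb L Ω).comp σ) η hη f

end Modular

end Fermat.Agent.S17lib.CCR
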