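/-
S17lib / CCR / Closure  (helper4)   — Project G, block CCR, part 15

**The constant field extension to an algebraic closure `Ω` of the function field itself**
(`Ω ⊇ Fk ⊇ k`, `Ω / Fk` algebraic, `Ω` algebraically closed; e.g. `Ω = AlgebraicClosure Fk`):

* `ConstExt.isCurveOfGenus_of_isAlgebraic` : `FΩ / Ω` is a curve of the SAME genus — no auxiliary
  valuation ring in the statement (one is produced from any place of `Fk` by brick (B1),
  `Chev.exists_valuationSubring_inst`);
* `ConstExt.exists_generic_place` : the GENERIC POINT `η` of the curve over `Ω`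
  (`(ι f)(η) = f ∈ Ω` for all `f ∈ Fk`);
* modular instance: `Ωb N := AlgebraicClosure (FBar N)`, `isCurveOfGenus_FΩb`, `exists_generic_place_FΩb`.
-/
import Mathlib
import Fermat.Agent.S17lib.CCR.Taut
import Fermat.Agent.S17lib.CCR.Genus
import Fermat.Agent.S17lib.Chev.Inst

set_option autoImplicit false
set_option linter.unusedSectionVars false
set_option linter.style.haveILetI false

noncomputable section

namespace Fermat.Agent.S17lib.CCR

open AlgebraicCurve IntermediateField Fermat.Agent.ProgramR Fermat.Agent.S18lib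

section Generic

variable {k Ω Fk FΩ : Type*} [Field k] [Field Ω] [Field Fk] [Field FΩ]
  [Algebra k Ω] [Algebra k Fk] [Algebra Ω FΩ] [Algebra k FΩ] [IsScalarTower k Ω FΩ]
  {ι : Fk →ₐ[k] FΩ}

/-- **(C1) without auxiliary data**: if `Ω` contains `Fk` and is algebraic over it, the constant
field extension `FΩ / Ω` has the same genus as `Fk / k`. -/
theorem ConstExt.isCurveOfGenus_of_isAlgebraic [CharZero k] [IsAlgClosed k] [IsAlgClosed Ω]
    [Algebra Fk Ω] [IsScalarTower k Fk Ω] [Algebra.IsAlgebraic Fk Ω]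
    (h : ConstExt Ω ι) {g : ℕ} (hFk : IsCurveOfGenus k Fk g) {y₀ : Fk}
    (hy₀ : Transcendental k y₀) [FiniteDimensional k⟮y₀⟯ Fk] : IsCurveOfGenus Ω FΩ g := by
  haveI := hFk.infinite_places
  obtain ⟨x⟩ : Nonempty (Place k Fk) := inferInstance
  obtain ⟨A, hk, -, hres, hsurj⟩ :=
    Chev.exists_valuationSubring_inst (Ω := Ω) x (hFk.deg_eq_one x)
  letI := Chev.algebraOfMem A hk
  haveI := Chev.isScalarTower_ofMem A hk
  letI := Chev.algebraResidue A hk hres Fk
  haveI := Chev.isScalarTower_residue A hk hres Fk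
  exact h.isCurveOfGenus A hsurj hFk hy₀

/-- **the generic point** of the curve over `Ω ⊇ Fk`: `(ι f)(η) = f` -/
theorem ConstExt.exists_generic_place [CharZero Ω] [Algebra Fk Ω] [IsScalarTower k Fk Ω]
    (h : ConstExt Ω ι) {y₀ : Fk} (hy₀ : Transcendental k y₀) [FiniteDimensional k⟮y₀⟯ Fk] :
    ∃ η : Place Ω FΩ, ∀ f : Fk, ι f = algebraMap Ω FΩ (algebraMap Fk Ω f) ∨
      0 < η.ord (ι f - algebraMap Ω FΩ (algebraMap Fk Ω f)) :=
  exists_place_of_emb' h hy₀ (IsScalarTower.toAlgHom k Fk Ω)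

end Generic

section Modular

open ModularCurve

local notation "Qb" => AlgebraicClosure ℚ

variable (N : ℕ) [NeZero N]

/-- the algebraic closure of the function field of `X₀(N)` over `ℚ̄` -/
abbrev Ωb : Type := AlgebraicClosure (S18lib.FBar N)

/-- **`X₀(N)` over `Ωb N` has the genus of `X₀(N)` over `ℚ̄`** -/
theorem isCurveOfGenus_FΩb {g : ℕ} (hg : IsCurveOfGenus Qb (S18lib.FBar N) g) :
    IsCurveOfGenus (Ωb N) (FΩ (Ωb N) N) g := by
  letI := algFΩ (Ωb N) N
  haveI := towerFΩ (Ωb N) N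
  exact (constExt_FΩ (Ωb N) N).isCurveOfGenus_of_isAlgebraic hg (Gin0.transcendental_jF N)

/-- **the generic point of `X₀(N)`** as a place of `FΩ (Ωb N) N` -/
theorem exists_generic_place_FΩb :
    letI := algFΩ (Ωb N) N
    ∃ η : Place (Ωb N) (FΩ (Ωb N) N), ∀ f : S18lib.FBar N,
      iotaΩ (Ωb N) N f = algebraMap (Ωb N) (FΩ (Ωb N) N) (algebraMap (S18lib.FBar N) (Ωb N) f) ∨
        0 < η.ord (iotaΩ (Ωb N) N f -
          algebraMap (Ωb N) (FΩ (Ωb N) N) (algebraMap (S18lib.FBar N) (Ωb N) f)) := by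
  letI := algFΩ (Ωb N) N
  haveI := towerFΩ (Ωb N) N
  exact (constExt_FΩ (Ωb N) N).exists_generic_place (Gin0.transcendental_jF N)

end Modular

end Fermat.Agent.S17lib.CCR
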