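/-
S17lib / CCR / ConstPlaces  (helper4)   — Project G, block CCR, part 16

**The `Ω`-level dictionary in ONE `obtain`, no auxiliary valuation ring visible**
(`Ω ⊇ Fk ⊇ k`, `Ω / Fk` algebraic, `Ω` algebraically closed, `hc : ConstExt Ω ι`):

`ConstExt.exists_cst_generic` : the constant places `cst : Place k Fk → Place Ω FΩ` (helper9's
`CanDiff.cstK` for one auxiliary `(A₀, D₀)`) and the generic point `η`, with
* `cst` injective, `(cst p).ord (ι f) = p.ord f`, `Q.ord (ι f) ≠ 0 → Q ∈ range cst`,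
* `η` takes the value `f ∈ Fk ⊂ Ω` at `ι f`, `η ∉ range cst`,
* for EVERY reduction datum `(A, h, D, hD)` of the constant field extension:
  `specPlace h D (cst p) = p` (constant places specialise to themselves),
* a non-constant place `Q ∉ range cst` defines `σ_Q : Fk →ₐ[k] Ω` with `(ι f)(Q) = σ_Q f`, and
  distinct non-constant places give distinct embeddings.
-/
import Mathlib
import Fermat.Agent.S17lib.CCR.Closure
import Fermat.Agent.S17lib.CanDiff.ConstK

set_option autoImplicit false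
set_option linter.unusedSectionVars false
set_option linter.style.haveILetI false

noncomputable section

namespace Fermat.Agent.S17lib.CCR

open AlgebraicCurve IntermediateField Fermat.Agent.ProgramR Fermat.Agent.S18lib
open Fermat.Agent.S15lib.Weil

section Generic

variable {k Ω Fk FΩ : Type*} [Field k] [Field Ω] [Field Fk] [Field FΩ]
  [Algebra k Ω] [Algebra k Fk] [Algebra Ω FΩ] [Algebra k FΩ] [IsScalarTower k Ω FΩ]
  {ι : Fk →ₐ[k] FΩ}

/-- the instances on the special fibre of a reduction datum of the constant field extension -/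
theorem ConstData.ratPlaces_res {A : ValuationSubring Ω} [Algebra k A] [IsScalarTower k A Ω]
    [Algebra (IsLocalRing.ResidueField A) Fk] [IsScalarTower k (IsLocalRing.ResidueField A) Fk]
    (h : ConstData A ι) {g : ℕ} (hFk : IsCurveOfGenus k Fk g) :
    RatPlaces (IsLocalRing.ResidueField A) Fk :=
  ⟨(isCurveOfGenus_res h hFk).deg_eq_one⟩

/-- **the `Ω`-level dictionary**: constant places `cst` and generic point `η` of the curve over
`Ω ⊇ Fk`, with everything the specialisation argument uses. -/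
structure IsConstDict [Algebra Fk Ω] (ι : Fk →ₐ[k] FΩ) (cst : Place k Fk → Place Ω FΩ)
    (η : Place Ω FΩ) : Prop where
  /-- distinct places give distinct constant places -/
  injective : Function.Injective cst
  /-- a constant place has the orders of the place it comes from -/
  ord_iota : ∀ p f, (cst p).ord (ι f) = p.ord f
  /-- a place which sees a zero or pole of some `ι f` is constant -/
  mem_range : ∀ (Q : Place Ω FΩ) (f : Fk), Q.ord (ι f) ≠ 0 → Q ∈ Set.range cst
  /-- `η` is the generic point: `(ι f)(η) = f` -/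
  generic : ∀ f : Fk, ι f = algebraMap Ω FΩ (algebraMap Fk Ω f) ∨
    0 < η.ord (ι f - algebraMap Ω FΩ (algebraMap Fk Ω f))
  /-- the generic point is not constant -/
  generic_notMem : η ∉ Set.range cst
  /-- constant places specialise to themselves under EVERY reduction datum -/
  spec_cst : ∀ (A : ValuationSubring Ω) [Algebra k A] [IsScalarTower k A Ω]
    [Algebra (IsLocalRing.ResidueField A) Fk]
    [IsScalarTower k (IsLocalRing.ResidueField A) Fk] (h : ConstData A ι)
    (D : RedDatum A FΩ Fk), D.toGaussDatum = gaussDatum h → ∀ p, specPlace h D (cst p) = p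
  /-- a non-constant place is an `Ω`-point `σ : Fk →ₐ[k] Ω` -/
  exists_emb : ∀ Q : Place Ω FΩ, Q ∉ Set.range cst → ∃ σ : Fk →ₐ[k] Ω, ∀ f : Fk,
    ι f = algebraMap Ω FΩ (σ f) ∨ 0 < Q.ord (ι f - algebraMap Ω FΩ (σ f))
  /-- a non-constant place is determined by its `Ω`-point -/
  eq_of_emb : ∀ (Q Q' : Place Ω FΩ) (σ : Fk →ₐ[k] Ω),
    (∀ f : Fk, ι f = algebraMap Ω FΩ (σ f) ∨ 0 < Q.ord (ι f - algebraMap Ω FΩ (σ f))) →
    (∀ f : Fk, ι f = algebraMap Ω FΩ (σ f) ∨ 0 < Q'.ord (ι f - algebraMap Ω FΩ (σ f))) → Q = Q'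

/-- **constant places and generic point of the curve over `Ω ⊇ Fk`** -/
theorem ConstExt.exists_cst_generic [CharZero k] [IsAlgClosed k] [IsAlgClosed Ω]
    [Algebra Fk Ω] [IsScalarTower k Fk Ω] [Algebra.IsAlgebraic Fk Ω]
    (hc : ConstExt Ω ι) {g : ℕ} (hFk : IsCurveOfGenus k Fk g) {y₀ : Fk}
    (hy₀ : Transcendental k y₀) [FiniteDimensional k⟮y₀⟯ Fk] :
    ∃ (cst : Place k Fk → Place Ω FΩ) (η : Place Ω FΩ), IsConstDict ι cst η := by
  haveI : CharZero Ω := charZero_of_injective_algebraMap (algebraMap k Ω).injective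
  have hF := hc.isCurveOfGenus_of_isAlgebraic hFk hy₀
  haveI := hF.hasPrincipalDivisors
  haveI := hFk.hasPrincipalDivisors
  haveI : RatPlaces Ω FΩ := ⟨hF.deg_eq_one⟩
  have hdeg := CanDiff.degree_polesOf_iota_all hc y₀
  -- one auxiliary reduction datum
  haveI := hFk.infinite_places
  obtain ⟨x⟩ : Nonempty (Place k Fk) := inferInstance
  obtain ⟨A₀, hk, -, hres, hsurj⟩ :=
    Chev.exists_valuationSubring_inst (Ω := Ω) x (hFk.deg_eq_one x)
  letI := Chev.algebraOfMem A₀ hk
  haveI := Chev.isScalarTower_ofMem A₀ hk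
  letI := Chev.algebraResidue A₀ hk hres Fk
  haveI := Chev.isScalarTower_residue A₀ hk hres Fk
  obtain ⟨-, D₀, hD₀⟩ := hc.exists_redDatum' A₀ hsurj hFk hy₀
  set h₀ := hc.constData A₀ hsurj with hh₀
  haveI := (isCurveOfGenus_res h₀ hFk).hasPrincipalDivisors
  haveI := h₀.ratPlaces_res hFk
  obtain ⟨η, hη⟩ := hc.exists_generic_place hy₀
  refine ⟨CanDiff.cstK h₀ hD₀ hdeg, η, CanDiff.cstK_injective h₀ hD₀ hdeg,
    CanDiff.ord_cstK_iota h₀ hD₀ hdeg, fun Q f hQ => CanDiff.mem_range_cstK h₀ hD₀ hdeg hQ, hη,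
    CanDiff.notMem_range_cstK_of_hasValueAt h₀ hD₀ hdeg (IsScalarTower.toAlgHom k Fk Ω) hη,
    ?_, ?_, ?_⟩
  · intro A _ _ _ _ h D hD p
    haveI := (isCurveOfGenus_res h hFk).hasPrincipalDivisors
    haveI := h.ratPlaces_res hFk
    exact CanDiff.specPlace_eq_of_ord_iota h hD hdeg (CanDiff.ord_cstK_iota h₀ hD₀ hdeg p)
  · intro Q hQ
    exact ⟨CanDiff.embOfNonConst h₀ hD₀ hdeg hQ, CanDiff.hasValueAt_embOfNonConst h₀ hD₀ hdeg hQ⟩
  · intro Q Q' σ hσ hσ'
    have hQ : ∀ f : Fk, 0 ≤ Q.ord (ι f) := fun f =>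
      (CanDiff.ord_iota_eq_zero_of_hasValueAt ι Q σ hσ f).ge
    have hQ' : ∀ f : Fk, 0 ≤ Q'.ord (ι f) := fun f =>
      (CanDiff.ord_iota_eq_zero_of_hasValueAt ι Q' σ hσ' f).ge
    refine CanDiff.embOfPlace_injective h₀ hD₀ hdeg hQ hQ' ?_
    rw [CanDiff.embOfPlace_eq ι Q hQ σ hσ, CanDiff.embOfPlace_eq ι Q' hQ' σ hσ']

/-- a place of `FΩ` not in the range of `cst` has `ord (ι f) = 0` for all `f` -/
theorem IsConstDict.ord_iota_eq_zero [Algebra Fk Ω] {cst : Place k Fk → Place Ω FΩ}
    {η : Place Ω FΩ} (hd : IsConstDict ι cst η) {Q : Place Ω FΩ} (hQ : Q ∉ Set.range cst)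
    (f : Fk) : Q.ord (ι f) = 0 := by
  by_contra hne
  exact hQ (hd.mem_range Q f hne)

end Generic

section Modular

open ModularCurve

local notation "Qb" => AlgebraicClosure ℚ

variable (N : ℕ) [NeZero N]

/-- **modular instance**: constant places and generic point of `X₀(N)` over `Ωb N` -/
theorem exists_cst_generic_FΩb {g : ℕ} (hg : IsCurveOfGenus Qb (S18lib.FBar N) g) :
    letI := algFΩ (Ωb N) N
    haveI := towerFΩ (Ωb N) N
    ∃ (cst : Place Qb (S18lib.FBar N) → Place (Ωb N) (FΩ (Ωb N) N))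
      (η : Place (Ωb N) (FΩ (Ωb N) N)), IsConstDict (iotaΩ (Ωb N) N) cst η := by
  letI := algFΩ (Ωb N) N
  haveI := towerFΩ (Ωb N) N
  exact (constExt_FΩ (Ωb N) N).exists_cst_generic hg (Gin0.transcendental_jF N)

end Modular

end Fermat.Agent.S17lib.CCR
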