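/-
S17lib / CCR / DivOmega  (helper4)   — Project G, piece (F1) of the final assembly

**The `Ω`-level datum of `GENDIV` in ONE `obtain`** (`Ω ⊇ Fk ⊇ k`, `Ω / Fk` algebraic, `Ω`
algebraically closed, `hc : ConstExt Ω ι`, `Fk / k` of genus `g ≥ 1`, `m > 0`):

constant places `cst`, generic point `η'`, the `d ≤ g` NON-CONSTANT points `Q' j` of the generic
division divisor with their `Ω`-points `σ' j : Fk →ₐ[k] Ω`, the constant divisors `E₀` (constant
points of the division divisor) and `B₀` (constant base divisor), and the function `φ` with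

  `div φ = m (∑ Q' j + ι_* (E₀ - B₀)) - η' + cst inf`.

Sources: `CCR.ConstExt.exists_cst_generic` (dictionary), helper5's `DivAll.exists_division_data` (D2),
helper2's `GenDivSpec.exists_split`.
-/
import Mathlib
import Fermat.Agent.S17lib.CCR.ConstPlaces
import Fermat.Agent.S17lib.DivAll.DivData
import Fermat.Agent.S17lib.GenDiv.SpecCCR
import Fermat.Agent.S17lib.GenDivData

set_option autoImplicit false
set_option linter.unusedSectionVars false
set_option linter.style.haveILetI false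

noncomputable section

namespace Fermat.Agent.S17lib.CCR

open AlgebraicCurve IntermediateField Module Fermat.Agent.ProgramR Fermat.Agent.S18lib

section Generic

variable {k Ω Fk FΩ : Type*} [Field k] [Field Ω] [Field Fk] [Field FΩ]
  [Algebra k Ω] [Algebra k Fk] [Algebra Ω FΩ] [Algebra k FΩ] [IsScalarTower k Ω FΩ]
  {ι : Fk →ₐ[k] FΩ}

/-- **(F1), with the dictionary**: the `Ω`-level datum of `GENDIV`. -/
theorem ConstExt.exists_omega_data' [CharZero k] [IsAlgClosed k] [IsAlgClosed Ω]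
    [Algebra Fk Ω] [IsScalarTower k Fk Ω] [Algebra.IsAlgebraic Fk Ω]
    (hc : ConstExt Ω ι) {g : ℕ} (hFk : IsCurveOfGenus k Fk g) (hg : 1 ≤ g) {y₀ : Fk}
    (hy₀ : Transcendental k y₀) [FiniteDimensional k⟮y₀⟯ Fk] (inf : Place k Fk) {m : ℕ}
    (hm : 0 < m) :
    ∃ (cst : Place k Fk → Place Ω FΩ) (η' : Place Ω FΩ) (d : ℕ) (Q' : Fin d → Place Ω FΩ)
      (σ' : Fin d → Fk →ₐ[k] Ω) (B₀ E₀ : Divisor k Fk) (φ : FΩ),
      IsConstDict ι cst η' ∧
      (∀ j f, ι f = algebraMap Ω FΩ (σ' j f) ∨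
        0 < (Q' j).ord (ι f - algebraMap Ω FΩ (σ' j f))) ∧
      Function.Injective σ' ∧ (∀ j, σ' j ≠ IsScalarTower.toAlgHom k Fk Ω) ∧
      Function.Injective Q' ∧ (∀ j, Q' j ∉ Set.range cst) ∧ (∀ j, Q' j ≠ η') ∧
      Divisor.degree B₀ = g ∧ 0 ≤ E₀ ∧ (∀ p, E₀ p ≤ 1) ∧ (∀ p, B₀ p ≠ 0 → E₀ p = 0) ∧
      E₀ inf = 0 ∧ Divisor.degree E₀ + d = g ∧ φ ≠ 0 ∧
      (∀ P : Place Ω FΩ, P.ord φ =
        (m : ℤ) * ((∑ j, Finsupp.single (Q' j) (1 : ℤ) : Divisor Ω FΩ) P +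
          (Finsupp.mapDomain cst (E₀ - B₀) : Divisor Ω FΩ) P) -
        (Finsupp.single η' (1 : ℤ) - Finsupp.single (cst inf) (1 : ℤ) : Divisor Ω FΩ) P) ∧
      finrank Ω (riemannRochSpace
        (∑ j, Finsupp.single (Q' j) (1 : ℤ) + Finsupp.mapDomain cst E₀ : Divisor Ω FΩ)) = 1 := by
  classical
  haveI : CharZero Ω := charZero_of_injective_algebraMap (algebraMap k Ω).injective
  obtain ⟨cst, η', hd⟩ := hc.exists_cst_generic hFk hy₀
  have hFΩ := hc.isCurveOfGenus_of_isAlgebraic hFk hy₀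
  have hx₀ := hc.transcendental_iota hy₀
  haveI := hc.finiteDimensional y₀
  haveI := hFk.infinite_places
  have hS : (Set.range cst).Infinite := Set.infinite_range_of_injective hd.injective
  have hne : η' ≠ cst inf := fun h => hd.generic_notMem ⟨inf, h.symm⟩
  obtain ⟨B, E, φ, hφ0, hBS, hBdeg, hE0, hE1, hEdeg, hEη, hEinf, hBE, hlE, hordφ⟩ :=
    DivAll.exists_division_data hFΩ hg hx₀ hS η' (cst inf) hne hm
  obtain ⟨d, Q', E₀, hQinj, hQc, hEQ, hE₀, hEsplit⟩ :=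
    GenDivSpec.exists_split cst hd.injective E hE0 hE1
  -- the constant base divisor
  set B₀ : Divisor k Fk := Finsupp.comapDomain cst B hd.injective.injOn with hB₀
  have hB : Finsupp.mapDomain cst B₀ = B := by
    refine Finsupp.mapDomain_comapDomain cst hd.injective B ?_
    intro P hP
    exact hBS P (Finsupp.mem_support_iff.1 hP)
  have hB₀apply : ∀ p, B₀ p = B (cst p) := fun p => Finsupp.comapDomain_apply _ _ _ _
  -- the `Ω`-points of the non-constant `Q' j`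
  choose σ' hσ' using fun j => hd.exists_emb (Q' j) (hQc j)
  have hQη : ∀ j, Q' j ≠ η' := by
    intro j h
    have := hEQ j
    rw [h, hEη] at this
    exact zero_ne_one this
  have hdegk := hFk.deg_eq_one
  have hdegΩ := hFΩ.deg_eq_one
  have hsum_deg : Divisor.degree (∑ j, Finsupp.single (Q' j) (1 : ℤ) : Divisor Ω FΩ) = d := by
    rw [map_sum]
    simp only [Divisor.degree_single, hdegΩ, Nat.cast_one, mul_one, Finset.sum_const,
      Finset.card_univ, Fintype.card_fin, nsmul_eq_mul]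
  refine ⟨cst, η', d, Q', σ', B₀, E₀, φ, hd, hσ', ?_, ?_, hQinj, hQc, hQη, ?_, ?_, ?_, ?_, ?_, ?_,
    hφ0, ?_, ?_⟩
  · -- `σ'` injective
    intro i j hij
    apply hQinj
    exact hd.eq_of_emb (Q' i) (Q' j) (σ' i) (hσ' i) (by rw [hij]; exact hσ' j)
  · -- `σ' j` is not the generic point
    intro j hj
    apply hQη j
    refine hd.eq_of_emb (Q' j) η' (σ' j) (hσ' j) ?_
    rw [hj]
    exact hd.generic
  · -- `deg B₀ = g`
    rw [← GenDivSpec.degree_mapDomain_of_deg_one hdegk hdegΩ cst B₀, hB, hBdeg]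
  · intro p
    rw [hE₀ p]
    exact hE0 (cst p)
  · intro p
    rw [hE₀ p]
    exact hE1 (cst p)
  · intro p hp
    rw [hE₀ p]
    exact hBE (cst p) (by rwa [← hB₀apply])
  · rw [hE₀ inf, hEinf]
  · -- `deg E₀ + d = g`
    have h1 := hEdeg
    rw [hEsplit, map_add, hsum_deg, GenDivSpec.degree_mapDomain_of_deg_one hdegk hdegΩ cst E₀] at h1
    omega
  · intro P
    rw [hordφ P, Finsupp.mapDomain_sub, hB]
    conv_lhs => rw [hEsplit]
    simp only [Finsupp.add_apply, Finsupp.sub_apply]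
    ring
  · rw [← hEsplit]
    exact hlE

/-- **(F1)**, the clauses of helper7's contract as a conjunction. -/
theorem ConstExt.exists_omega_data_clauses [CharZero k] [IsAlgClosed k] [IsAlgClosed Ω]
    [Algebra Fk Ω] [IsScalarTower k Fk Ω] [Algebra.IsAlgebraic Fk Ω]
    (hc : ConstExt Ω ι) {g : ℕ} (hFk : IsCurveOfGenus k Fk g) (hg : 1 ≤ g) {y₀ : Fk}
    (hy₀ : Transcendental k y₀) [FiniteDimensional k⟮y₀⟯ Fk] (inf : Place k Fk) {m : ℕ}
    (hm : 0 < m) :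
    ∃ (cst : Place k Fk → Place Ω FΩ) (η' : Place Ω FΩ) (d : ℕ) (Q' : Fin d → Place Ω FΩ)
      (σ' : Fin d → Fk →ₐ[k] Ω) (B₀ E₀ : Divisor k Fk) (φ : FΩ),
      (∀ p f, (cst p).ord (ι f) = p.ord f) ∧ Function.Injective cst ∧
      (∀ f, ι f = algebraMap Ω FΩ (algebraMap Fk Ω f) ∨
        0 < η'.ord (ι f - algebraMap Ω FΩ (algebraMap Fk Ω f))) ∧
      (∀ j f, ι f = algebraMap Ω FΩ (σ' j f) ∨
        0 < (Q' j).ord (ι f - algebraMap Ω FΩ (σ' j f))) ∧
      Function.Injective σ' ∧ (∀ j, σ' j ≠ IsScalarTower.toAlgHom k Fk Ω) ∧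
      Function.Injective Q' ∧ (∀ j, Q' j ∉ Set.range cst) ∧ (∀ j, Q' j ≠ η') ∧
      η' ∉ Set.range cst ∧
      Divisor.degree B₀ = g ∧ 0 ≤ E₀ ∧ (∀ p, E₀ p ≤ 1) ∧ (∀ p, B₀ p ≠ 0 → E₀ p = 0) ∧
      E₀ inf = 0 ∧ Divisor.degree E₀ + d = g ∧ φ ≠ 0 ∧
      (∀ P : Place Ω FΩ, P.ord φ =
        (m : ℤ) * ((∑ j, Finsupp.single (Q' j) (1 : ℤ) : Divisor Ω FΩ) P +
          (Finsupp.mapDomain cst (E₀ - B₀) : Divisor Ω FΩ) P) -
        (Finsupp.single η' (1 : ℤ) - Finsupp.single (cst inf) (1 : ℤ) : Divisor Ω FΩ) P) ∧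
      finrank Ω (riemannRochSpace
        (∑ j, Finsupp.single (Q' j) (1 : ℤ) + Finsupp.mapDomain cst E₀ : Divisor Ω FΩ)) = 1 := by
  obtain ⟨cst, η', d, Q', σ', B₀, E₀, φ, hd, h1, h2, h3, h4, h5, h6, h7, h8, h9, h10, h11, h12,
    h13, h14, h15⟩ := hc.exists_omega_data' hFk hg hy₀ inf hm
  exact ⟨cst, η', d, Q', σ', B₀, E₀, φ, hd.ord_iota, hd.injective, hd.generic, h1, h2, h3, h4, h5,
    h6, hd.generic_notMem, h7, h8, h9, h10, h11, h12, h13, h14, h15⟩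

/-- **(F1)**: the `Ω`-level division datum `OmegaData` of the final assembly (`S17lib/GenDivData`),
together with the dictionary `IsConstDict`. -/
theorem ConstExt.exists_omega_data_dict [CharZero k] [IsAlgClosed k] [IsAlgClosed Ω]
    [Algebra Fk Ω] [IsScalarTower k Fk Ω] [Algebra.IsAlgebraic Fk Ω]
    (hc : ConstExt Ω ι) {g : ℕ} (hFk : IsCurveOfGenus k Fk g) (hg : 1 ≤ g) {y₀ : Fk}
    (hy₀ : Transcendental k y₀) [FiniteDimensional k⟮y₀⟯ Fk] (inf : Place k Fk) {m : ℕ}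
    (hm : 0 < m) :
    ∃ (cst : Place k Fk → Place Ω FΩ) (η' : Place Ω FΩ) (d : ℕ) (Q' : Fin d → Place Ω FΩ)
      (σ' : Fin d → Fk →ₐ[k] Ω) (B₀ E₀ : Divisor k Fk) (φ : FΩ),
      OmegaData ι inf g m cst η' d Q' σ' B₀ E₀ φ ∧ IsConstDict ι cst η' := by
  obtain ⟨cst, η', d, Q', σ', B₀, E₀, φ, hd, h1, h2, h3, h4, h5, h6, h7, h8, h9, h10, h11, h12,
    h13, h14, h15⟩ := hc.exists_omega_data' hFk hg hy₀ inf hm
  exact ⟨cst, η', d, Q', σ', B₀, E₀, φ,
    ⟨hd.ord_iota, hd.injective, hd.generic, h1, h2, h3, h4, h5, h6, hd.generic_notMem, h7, h8, h9,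
      h10, h11, h12, h13, h14, h15⟩, hd⟩

/-- **(F1)**, helper7's contract: `∃ cst η' d Q' σ' B₀ E₀ φ, OmegaData …`. -/
theorem ConstExt.exists_omega_data [CharZero k] [IsAlgClosed k] [IsAlgClosed Ω]
    [Algebra Fk Ω] [IsScalarTower k Fk Ω] [Algebra.IsAlgebraic Fk Ω]
    (hc : ConstExt Ω ι) {g : ℕ} (hFk : IsCurveOfGenus k Fk g) (hg : 1 ≤ g) {y₀ : Fk}
    (hy₀ : Transcendental k y₀) [FiniteDimensional k⟮y₀⟯ Fk] (inf : Place k Fk) {m : ℕ}
    (hm : 0 < m) :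
    ∃ (cst : Place k Fk → Place Ω FΩ) (η' : Place Ω FΩ) (d : ℕ) (Q' : Fin d → Place Ω FΩ)
      (σ' : Fin d → Fk →ₐ[k] Ω) (B₀ E₀ : Divisor k Fk) (φ : FΩ),
      OmegaData ι inf g m cst η' d Q' σ' B₀ E₀ φ := by
  obtain ⟨cst, η', d, Q', σ', B₀, E₀, φ, h, -⟩ := hc.exists_omega_data_dict hFk hg hy₀ inf hm
  exact ⟨cst, η', d, Q', σ', B₀, E₀, φ, h⟩

end Generic

section Modular

open ModularCurve

local notation "Qb" => AlgebraicClosure ℚ

variable (N : ℕ) [NeZero N]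

/-- **(F1), modular**: the `Ω`-level division datum of `X₀(N)` over `Ωb N = AlgebraicClosure (FBar N)` -/
theorem exists_omega_data_FΩb {g : ℕ} (hg : IsCurveOfGenus Qb (S18lib.FBar N) g) (hg1 : 1 ≤ g)
    (inf : Place Qb (S18lib.FBar N)) {m : ℕ} (hm : 0 < m) :
    letI := algFΩ (Ωb N) N
    haveI := towerFΩ (Ωb N) N
    ∃ (cst : Place Qb (S18lib.FBar N) → Place (Ωb N) (FΩ (Ωb N) N))
      (η' : Place (Ωb N) (FΩ (Ωb N) N)) (d : ℕ) (Q' : Fin d → Place (Ωb N) (FΩ (Ωb N) N))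
      (σ' : Fin d → S18lib.FBar N →ₐ[Qb] Ωb N) (B₀ E₀ : Divisor Qb (S18lib.FBar N))
      (φ : FΩ (Ωb N) N),
      OmegaData (iotaΩ (Ωb N) N) inf g m cst η' d Q' σ' B₀ E₀ φ ∧
        IsConstDict (iotaΩ (Ωb N) N) cst η' := by
  letI := algFΩ (Ωb N) N
  haveI := towerFΩ (Ωb N) N
  exact (constExt_FΩ (Ωb N) N).exists_omega_data_dict hg hg1 (Gin0.transcendental_jF N) inf hm

end Modular

end Fermat.Agent.S17lib.CCR
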