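/-
S17lib / CCR / Header  (helper4)   — Project G, block CCR, part 17

Small plumbing lemmas for the assembly of `gendiv_modular`:

* `isAlgebraic_intermediateField` : an intermediate field `L` of `Ω / k` containing the image of
  `Fk` (`Ω / Fk` algebraic) has `Ω / L` algebraic  (the hypothesis of brick (B1) "x ↦ A" for the
  compositum `L`);
* `exists_isCurveOfGenus_of_transcendental` : a function field of one variable `L / K` (`K`
  algebraically closed of characteristic `0`, `x₀` transcendental, `L / K(x₀)` finite) is a curve of
  some genus: `HasPrincipalDivisors`, rational places, … for the compositum `L`.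
-/
import Mathlib
import Fermat.Agent.S18lib.RRgen.Canonical

set_option autoImplicit false
set_option linter.unusedSectionVars false
set_option linter.style.haveILetI false

noncomputable section

namespace Fermat.Agent.S17lib.CCR

open AlgebraicCurve IntermediateField Fermat.Agent.S18lib

/-- `Ω / L` is algebraic for an intermediate field `L ⊇ Fk` of an algebraic extension `Ω / Fk` -/
theorem isAlgebraic_intermediateField {k Fk Ω : Type*} [Field k] [Field Fk] [Field Ω]
    [Algebra k Fk] [Algebra k Ω] [Algebra Fk Ω] [IsScalarTower k Fk Ω]
    [Algebra.IsAlgebraic Fk Ω] (L : IntermediateField k Ω)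
    (hL : ∀ f : Fk, algebraMap Fk Ω f ∈ L) : Algebra.IsAlgebraic L Ω := by
  letI : Algebra Fk L := ((algebraMap Fk Ω).codRestrict L.toSubfield.toSubring hL).toAlgebra
  haveI : IsScalarTower Fk L Ω := IsScalarTower.of_algebraMap_eq fun _ => rfl
  exact Algebra.IsAlgebraic.tower_top (K := Fk) L

/-- **a function field of one variable over an algebraically closed field of characteristic `0`
is a curve of some genus** -/
theorem exists_isCurveOfGenus_of_transcendental {K L : Type*} [Field K] [Field L] [Algebra K L]
    [IsAlgClosed K] [CharZero K] {x₀ : L} (hx₀ : Transcendental K x₀)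
    [FiniteDimensional K⟮x₀⟯ L] : ∃ gL : ℕ, IsCurveOfGenus K L gL := by
  haveI : Algebra.IsSeparable K⟮x₀⟯ L := Algebra.IsAlgebraic.isSeparable_of_perfectField
  exact ⟨_, RRgen.Canonical.isCurveOfGenus_genusOf K hx₀⟩

end Fermat.Agent.S17lib.CCR
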